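import Fermat.Agent.S19.A.NF

/-!
# S19 / A / Gen : the generators `g_j`       [key S19/A-GEN]

`ψ : M → Qb` multiplicative; `U` acts trivially on `M` and fixes the values of `ψ`.
`Gf ψ a ρ = ρ (ψ (ρ⁻¹ • a))`,   `gen U bv ψ j a = ∑_{ρ ∈ GQ/U} ρ (bv j) * Gf ψ a ρ`.
* `Gf_RInv`: `(ρ u)(ψ ((ρ u)⁻¹ a)) = ρ (u (ψ (u⁻¹ ρ⁻¹ a))) = ρ (ψ (ρ⁻¹ a))`.
* `gen_equiv`: `σ (ρ (bv j) * Gf ψ a ρ) = (σρ)(bv j) * Gf ψ (σ a) (σ ρ)`; `map_sumU`, `sumU_translate`.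
* `gen_inv`: `∑_j ρ (b j) * gen j a = ∑_{ρ'} (∑_j ρ (b j) ρ' (bv j)) Gf ρ' = ∑_{ρ'} 1_{ρ⁻¹ρ' ∈ U} Gf ρ' = Gf ρ` (`NFD.dual`, `sumU_indicator`).
* `gen_add`: `Gf ψ (a+a') ρ = Gf ψ a ρ * Gf ψ a' ρ = ∑_{k,l} ρ (b k) ρ (b l) gen k a gen l a'`, so
  `gen j (a+a') = ∑_{k,l} (∑_ρ ρ (bv j * (b k * b l))) gen k a gen l a'`, and the coefficient lies in `R` by `NFD.tr` (`b k * b l` integral, `U`-fixed).
-/

set_option autoImplicit false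

noncomputable section

namespace Fermat.Agent.S19.A

local notation "Qb" => AlgebraicClosure ℚ
local notation "GQ" => (AlgebraicClosure ℚ ≃ₐ[ℚ] AlgebraicClosure ℚ)

variable {M : Type} [AddCommGroup M] [DistribMulAction GQ M]

/-- `ρ ↦ (ρ · ψ)(a)` -/
def Gf (ψ : M → Qb) (a : M) : GQ → Qb := fun ρ => ρ (ψ (ρ⁻¹ • a))

/-- the generators -/
def gen (U : Subgroup GQ) {J : Type} (bv : J → Qb) (ψ : M → Qb) (j : J) (a : M) : Qb :=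
  sumU U (fun ρ : GQ => ρ (bv j) * Gf ψ a ρ)

variable {ℓ : ℕ} [Fact ℓ.Prime] {U : Subgroup GQ} {J : Type} [Fintype J] {b bv : J → Qb}
  {ψ : M → Qb}

theorem Gf_RInv (hM : ∀ u ∈ U, ∀ a : M, u • a = a) (hψ : ∀ u ∈ U, ∀ a : M, u (ψ a) = ψ a) (a : M) :
    RInv U (Gf ψ a) := by
  intro ρ u hu
  show (ρ * u) (ψ ((ρ * u)⁻¹ • a)) = ρ (ψ (ρ⁻¹ • a))
  rw [mul_inv_rev, mul_smul, hM u⁻¹ (U.inv_mem hu), AlgEquiv.mul_apply, hψ u hu]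

omit [Fact ℓ.Prime] in
theorem gen_RInv (D : NFD ℓ U b bv) (hM : ∀ u ∈ U, ∀ a : M, u • a = a)
    (hψ : ∀ u ∈ U, ∀ a : M, u (ψ a) = ψ a) (j : J) (a : M) :
    RInv U (fun ρ : GQ => ρ (bv j) * Gf ψ a ρ) := by
  intro ρ u hu
  show (ρ * u) (bv j) * Gf ψ a (ρ * u) = ρ (bv j) * Gf ψ a ρ
  rw [Gf_RInv hM hψ a ρ u hu, AlgEquiv.mul_apply, D.fix_bv u hu]

theorem gen_equiv (D : NFD ℓ U b bv) (hM : ∀ u ∈ U, ∀ a : M, u • a = a)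
    (hψ : ∀ u ∈ U, ∀ a : M, u (ψ a) = ψ a) (j : J) (σ : GQ) (a : M) :
    σ (gen U bv ψ j a) = gen U bv ψ j (σ • a) := by
  have := D.fin
  have h1 := map_sumU (U := U) (σ : Qb →+* Qb) (fun ρ : GQ => ρ (bv j) * Gf ψ a ρ)
  have h2 := sumU_translate σ (gen_RInv D hM hψ j (σ • a))
  show σ (sumU U (fun ρ : GQ => ρ (bv j) * Gf ψ a ρ)) = sumU U (fun ρ : GQ => ρ (bv j) * Gf ψ (σ • a) ρ)
  rw [← h2]
  refine h1.trans (sumU_congr fun ρ => ?_)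
  show σ (ρ (bv j) * ρ (ψ (ρ⁻¹ • a))) = (σ * ρ) (bv j) * (σ * ρ) (ψ ((σ * ρ)⁻¹ • σ • a))
  rw [mul_inv_rev, mul_smul, inv_smul_smul, AlgEquiv.mul_apply, AlgEquiv.mul_apply, map_mul]

theorem gen_inv (D : NFD ℓ U b bv) (hM : ∀ u ∈ U, ∀ a : M, u • a = a)
    (hψ : ∀ u ∈ U, ∀ a : M, u (ψ a) = ψ a) (a : M) (ρ : GQ) :
    Gf ψ a ρ = ∑ j, ρ (b j) * gen U bv ψ j a := by
  have := D.fin
  have h1 : ∀ j, ρ (b j) * gen U bv ψ j a =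
      sumU U (fun ρ' : GQ => ρ (b j) * (ρ' (bv j) * Gf ψ a ρ')) := fun j =>
    (sumU_mul_left _ _).symm
  rw [Finset.sum_congr rfl fun j _ => h1 j, ← sumU_finset_sum]
  rw [← sumU_indicator ρ (Gf_RInv hM hψ a)]
  refine sumU_congr fun ρ' => ?_
  rw [← D.dual ρ ρ', Finset.sum_mul]
  exact Finset.sum_congr rfl fun j _ => (mul_assoc _ _ _)

theorem gen_add (D : NFD ℓ U b bv) (hM : ∀ u ∈ U, ∀ a : M, u • a = a)
    (hψ : ∀ u ∈ U, ∀ a : M, u (ψ a) = ψ a) (hmul : ∀ a a', ψ (a + a') = ψ a * ψ a') :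
    ∃ c : J → J → J → RR ℓ, ∀ (j : J) (a a' : M), gen U bv ψ j (a + a') =
      ∑ k, ∑ l, algebraMap (RR ℓ) Qb (c j k l) * (gen U bv ψ k a * gen U bv ψ l a') := by
  have := D.fin
  have h0 : ∀ j k l, ∃ r : RR ℓ, sumU U (fun ρ : GQ => ρ (bv j * (b k * b l))) =
      algebraMap (RR ℓ) Qb r := fun j k l =>
    D.tr j (b k * b l) ((D.int_b k).mul (D.int_b l)) fun u hu => by
      rw [map_mul, D.fix_b u hu, D.fix_b u hu]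
  choose c hc using h0
  refine ⟨c, fun j a a' => ?_⟩
  have h1 : ∀ ρ : GQ, ρ (bv j) * Gf ψ (a + a') ρ =
      ∑ k, ∑ l, ρ (bv j * (b k * b l)) * (gen U bv ψ k a * gen U bv ψ l a') := by
    intro ρ
    have h2 : Gf ψ (a + a') ρ = Gf ψ a ρ * Gf ψ a' ρ := by
      show ρ (ψ (ρ⁻¹ • (a + a'))) = ρ (ψ (ρ⁻¹ • a)) * ρ (ψ (ρ⁻¹ • a'))
      rw [smul_add, hmul, map_mul]
    rw [h2, gen_inv D hM hψ a ρ, gen_inv D hM hψ a' ρ, Finset.sum_mul_sum, Finset.mul_sum]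
    refine Finset.sum_congr rfl fun k _ => ?_
    rw [Finset.mul_sum]
    refine Finset.sum_congr rfl fun l _ => ?_
    rw [map_mul, map_mul]
    ring
  show sumU U (fun ρ : GQ => ρ (bv j) * Gf ψ (a + a') ρ) = _
  rw [sumU_congr h1, sumU_finset_sum]
  refine Finset.sum_congr rfl fun k _ => ?_
  rw [sumU_finset_sum]
  refine Finset.sum_congr rfl fun l _ => ?_
  rw [sumU_mul_right, hc]

end Fermat.Agent.S19.A
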