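import Fermat.Agent.S19.A.Span
import Fermat.Agent.S19.A.Gen

/-!
# S19 / A / Char : the generators attached to one character      (helper6)
-/

set_option autoImplicit false

noncomputable section

namespace Fermat.Agent.S19.A

open Fermat.Agent.S19

variable {ℓ : ℕ} [Fact ℓ.Prime]

/-- a finite dimensional field containing finitely many given elements -/
theorem exists_fd_of_finite (s : Set Qb) (hs : s.Finite) :
    ∃ E : IntermediateField ℚ Qb, FiniteDimensional ℚ E ∧ s ⊆ E := by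
  have := int_isAlgebraic
  have : Finite s := hs
  exact ⟨IntermediateField.adjoin ℚ s,
    IntermediateField.finiteDimensional_adjoin (fun x _ => (Algebra.IsAlgebraic.isAlgebraic x).isIntegral),
    IntermediateField.subset_adjoin ℚ s⟩

theorem exists_char_data (M : Type) [AddCommGroup M] [Finite M] [DistribMulAction GQ M]
    (hopen : ∀ x : M, ∃ E : IntermediateField ℚ Qb, FiniteDimensional ℚ E ∧
      ∀ σ : GQ, (∀ a ∈ E, σ a = a) → σ • x = x)
    (A : ValuationSubring Qb) (hA : A.LiesOverPrime ℓ) (χ : M → Qb)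
    (hmul : ∀ a b, χ (a + b) = χ a * χ b)
    (hGC : ∀ (ρ₀ : GQ) (a : M), GCfun A (fun ρ => (ρ * ρ₀) (χ ((ρ * ρ₀)⁻¹ • a)))) :
    ∃ (J : Type) (_ : Fintype J) (g : J → M → Qb) (β : J → Qb) (c : J → J → J → RR ℓ),
      (∀ j (σ : GQ) a, σ (g j a) = g j (σ • a)) ∧ (∀ j a, IsIntegral (RR ℓ) (g j a)) ∧
      (∀ a, χ a = ∑ j, β j * g j a) ∧
      ∀ j a a', g j (a + a') =
        ∑ k, ∑ l, algebraMap (RR ℓ) Qb (c j k l) * (g k a * g l a') := by
  classical
  have := Fintype.ofFinite M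
  -- the field `E0`
  choose Ex hEx hEx' using hopen
  obtain ⟨Eχ, hEχ, hEχ'⟩ := exists_fd_of_finite (Set.range χ) (Set.finite_range χ)
  let E0 : IntermediateField ℚ Qb := (⨆ x : M, Ex x) ⊔ Eχ
  have hE0 : FiniteDimensional ℚ E0 := by
    have h1 : FiniteDimensional ℚ (⨆ x : M, Ex x : IntermediateField ℚ Qb) :=
      IntermediateField.finiteDimensional_iSup_of_finite
    exact IntermediateField.finiteDimensional_sup _ _
  have hE0M : ∀ σ : GQ, (∀ a ∈ E0, σ a = a) → ∀ x : M, σ • x = x := fun σ hσ x =>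
    hEx' x σ (fun a ha => hσ a ((le_trans (le_iSup Ex x) le_sup_left : Ex x ≤ E0) ha))
  have hE0χ : ∀ σ : GQ, (∀ a ∈ E0, σ a = a) → ∀ x : M, σ (χ x) = χ x := fun σ hσ x =>
    hσ _ ((le_sup_right : Eχ ≤ E0) (hEχ' ⟨x, rfl⟩))
  -- the local criterion
  have hspan : ∀ a : M, ∃ (n : ℕ) (c α : Fin n → Qb), (∀ k, c k ∈ A) ∧
      (∀ k, IsIntegral (RR ℓ) (α k)) ∧ ∀ ρ, Gf χ a ρ = ∑ k, c k * ρ (α k) := by
    intro a
    refine exists_span_of_GCfun ℓ A hA (Gf χ a) ⟨E0, hE0, ?_⟩ (fun ρ₀ => hGC ρ₀ a)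
    intro σ hσ ρ
    have hσ' : ∀ a ∈ E0, σ⁻¹ a = a := fun a ha => by
      have := hσ a ha
      calc σ⁻¹ a = σ⁻¹ (σ a) := by rw [this]
        _ = a := by simp [← AlgEquiv.mul_apply]
    unfold Gf
    rw [mul_inv_rev, mul_smul, hE0M σ⁻¹ hσ', AlgEquiv.mul_apply, hE0χ σ hσ]
  choose n c α hc hα hG using hspan
  obtain ⟨Eα, hEα, hEα'⟩ := exists_fd_of_finite (⋃ a : M, Set.range (α a))
    (Set.finite_iUnion fun a => Set.finite_range _)
  let E : IntermediateField ℚ Qb := E0 ⊔ Eα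
  have hE : FiniteDimensional ℚ E := IntermediateField.finiteDimensional_sup _ _
  obtain ⟨U, J, hJ, b, bv, D, hU⟩ := exists_NFD ℓ E
  have hfix : ∀ u ∈ U, ∀ a ∈ E, u a = a := fun u hu a ha =>
    (IntermediateField.mem_fixingSubgroup_iff E u).mp (hU hu) a ha
  have hM : ∀ u ∈ U, ∀ a : M, u • a = a := fun u hu =>
    hE0M u (fun a ha => hfix u hu a ((le_sup_left : E0 ≤ E) ha))
  have hψ : ∀ u ∈ U, ∀ a : M, u (χ a) = χ a := fun u hu =>
    hE0χ u (fun a ha => hfix u hu a ((le_sup_left : E0 ≤ E) ha))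
  have hαU : ∀ a k, ∀ u ∈ U, u (α a k) = α a k := fun a k u hu =>
    hfix u hu _ ((le_sup_right : Eα ≤ E) (hEα' (Set.mem_iUnion.mpr ⟨a, ⟨k, rfl⟩⟩)))
  have := D.fin
  have hmemA : ∀ j a, gen U bv χ j a ∈ A := by
    intro j a
    have h1 : gen U bv χ j a = ∑ k, c a k * sumU U (fun ρ : GQ => ρ (bv j * α a k)) := by
      unfold gen
      simp_rw [← sumU_mul_left]
      rw [← sumU_finset_sum]
      refine sumU_congr fun ρ => ?_
      rw [hG, Finset.mul_sum]
      refine Finset.sum_congr rfl fun k _ => ?_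
      rw [map_mul]; ring
    rw [h1]
    refine Subring.sum_mem A.toSubring fun k _ => ?_
    obtain ⟨r, hr⟩ := D.tr j (α a k) (hα a k) (hαU a k)
    rw [hr]
    exact A.mul_mem _ _ (hc a k) (R_le_A hA r)
  obtain ⟨cc, hcc⟩ := gen_add D hM hψ hmul
  refine ⟨J, hJ, gen U bv χ, b, cc, gen_equiv D hM hψ, ?_, ?_, hcc⟩
  · intro j a
    refine isIntegral_of_conj_mem hA _ fun σ => ?_
    rw [gen_equiv D hM hψ]
    exact hmemA j _
  · intro a
    have := gen_inv D hM hψ a 1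
    simpa [Gf] using this

end Fermat.Agent.S19.A
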