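import Fermat.Agent.S19.A.Integral

/-!
# S19 / A / Descent      [key S19/A-DESC]

`H` a finite `R`-subalgebra of `M → Qb` consisting of equivariant functions, whose `Qb`-span is everything.  Then `H` has an `R`-basis which is a `Qb`-basis of `M → Qb`.
* `H` is torsion free over the PID `R` (`R_pid`; `M → Qb` is a `ℚ`-vector space, `R → Qb` injective) and finite, so free with a finite basis `b`
  (`Module.free_of_finite_type_torsion_free'`, `Module.Free.chooseBasis`, `Module.Finite.finite_basis`).
* span: `span Qb (range b) ⊇ H`.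
* independence: `b` is `R`-independent ⇒ `ℚ`-independent (clear denominators; `R_frac`) ⇒ `Qb`-independent by Galois descent: take a nontrivial relation `∑ c_i b_i = 0` with minimal support,
  normalised `c_{i₀} = 1`; for `σ : GQ`: `0 = σ (∑ c_i b_i (σ⁻¹ a)) = ∑ σ(c_i) b_i(a)`; the difference is a shorter relation, so `σ c_i = c_i` for all `σ`, `c_i ∈ ℚ`
  (`IsGalois ℚ Qb`: `IsGalois.mem_bot_iff_fixed` / `InfiniteGalois.fixedField_bot`).
-/

set_option autoImplicit false

noncomputable section

namespace Fermat.Agent.S19.A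

local notation "Qb" => AlgebraicClosure ℚ
local notation "GQ" => (AlgebraicClosure ℚ ≃ₐ[ℚ] AlgebraicClosure ℚ)

variable {ℓ : ℕ} [Fact ℓ.Prime]

theorem desc_isGalois : IsGalois ℚ Qb := by
  have h2 : Algebra.IsAlgebraic ℚ Qb := AlgebraicClosure.isAlgebraic ℚ
  have h1 : IsAlgClosure ℚ Qb := ⟨inferInstance, h2⟩
  have : Normal ℚ Qb := IsAlgClosure.normal ℚ Qb
  exact {}

theorem desc_exists_rat (x : Qb) (h : ∀ σ : GQ, σ x = x) : ∃ q : ℚ, algebraMap ℚ Qb q = x :=
  have := desc_isGalois
  (InfiniteGalois.mem_range_algebraMap_iff_fixed (k := ℚ) (K := Qb) x).mpr h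

/-- Galois descent of linear independence -/
theorem linearIndependent_of_equivariant {M ι : Type} [MulAction GQ M] (v : ι → M → Qb)
    (heq : ∀ i (σ : GQ) (a : M), σ (v i a) = v i (σ • a)) (h : LinearIndependent ℚ v) :
    LinearIndependent Qb v := by
  classical
  rw [linearIndependent_iff']
  intro s
  induction s using Finset.induction_on with
  | empty => intro g _ i hi; exact absurd hi (Finset.notMem_empty i)
  | insert a s has ih =>
    intro g hg
    -- the conjugate relation
    have hconj : ∀ (t : Finset ι) (c : ι → Qb), ∑ i ∈ t, c i • v i = 0 → ∀ σ : GQ,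
        ∑ i ∈ t, (σ (c i)) • v i = 0 := by
      intro t c hc σ
      funext b
      have h1 := congrFun hc (σ⁻¹ • b)
      simp only [Finset.sum_apply, Pi.smul_apply, smul_eq_mul, Pi.zero_apply] at h1 ⊢
      have h2 := congrArg σ h1
      rw [map_sum, map_zero] at h2
      rw [← h2]
      refine Finset.sum_congr rfl fun i _ => ?_
      rw [map_mul, heq, smul_inv_smul]
    by_cases hga : g a = 0
    · have h1 : ∑ i ∈ s, g i • v i = 0 := by
        rw [Finset.sum_insert has, hga, zero_smul, zero_add] at hg
        exact hg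
      intro i hi
      rcases Finset.mem_insert.mp hi with rfl | hi
      · exact hga
      · exact ih g h1 i hi
    · exfalso
      set c : ι → Qb := fun i => g i / g a with hc
      have hca : c a = 1 := div_self hga
      have hrel : ∑ i ∈ insert a s, c i • v i = 0 := by
        have : ∑ i ∈ insert a s, c i • v i = (g a)⁻¹ • ∑ i ∈ insert a s, g i • v i := by
          rw [Finset.smul_sum]
          refine Finset.sum_congr rfl fun i _ => ?_
          rw [smul_smul]
          congr 1
          exact div_eq_inv_mul _ _
        rw [this, hg, smul_zero]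
      have hfix : ∀ i ∈ s, ∀ σ : GQ, σ (c i) = c i := by
        intro i hi σ
        have h1 := hconj _ c hrel σ
        rw [Finset.sum_insert has, hca, map_one] at h1
        rw [Finset.sum_insert has, hca] at hrel
        have h2 : ∑ i ∈ s, (σ (c i) - c i) • v i = 0 := by
          simp only [sub_smul, Finset.sum_sub_distrib]
          have e1 : ∑ i ∈ s, σ (c i) • v i = - ((1 : Qb) • v a) := by
            rw [eq_neg_iff_add_eq_zero, add_comm]; exact h1
          have e2 : ∑ i ∈ s, c i • v i = - ((1 : Qb) • v a) := by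
            rw [eq_neg_iff_add_eq_zero, add_comm]; exact hrel
          rw [e1, e2, sub_self]
        exact sub_eq_zero.mp (ih _ h2 i hi)
      have hq : ∀ i, i ∈ insert a s → ∃ q : ℚ, algebraMap ℚ Qb q = c i := by
        intro i hi
        rcases Finset.mem_insert.mp hi with rfl | hi
        · exact ⟨1, by rw [map_one, hca]⟩
        · exact desc_exists_rat _ (hfix i hi)
      choose! q hq using hq
      have hrelQ : ∑ i ∈ insert a s, q i • v i = 0 := by
        rw [← hrel]
        refine Finset.sum_congr rfl fun i hi => ?_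
        rw [← hq i hi, algebraMap_smul]
      have h0 := linearIndependent_iff'.mp h _ q hrelQ a (Finset.mem_insert_self a s)
      have h1 := hq a (Finset.mem_insert_self a s)
      rw [h0, map_zero, hca] at h1
      exact zero_ne_one h1

theorem exists_basis {M : Type} [Finite M] [MulAction GQ M] (H : Subalgebra (RR ℓ) (M → Qb))
    (hfin : Module.Finite (RR ℓ) H)
    (heq : ∀ h ∈ H, ∀ (σ : GQ) (a : M), σ (h a) = h (σ • a))
    (hsp : Submodule.span Qb (H : Set (M → Qb)) = ⊤) :
    ∃ (ι : Type) (_ : Fintype ι) (b : Module.Basis ι (RR ℓ) H),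
      LinearIndependent Qb (fun i => ((b i : H) : M → Qb)) ∧
      Submodule.span Qb (Set.range fun i => ((b i : H) : M → Qb)) = ⊤ := by
  classical
  have hpid := R_pid ℓ
  have hfrac := R_frac ℓ
  have htf : Module.IsTorsionFree (RR ℓ) H := by
    refine ⟨fun r hr x y hxy => ?_⟩
    have hr0 : algebraMap (RR ℓ) Qb r ≠ 0 := by
      intro h0
      apply hr.ne_zero
      apply algebraMap_RR_injective ℓ
      rw [h0, map_zero]
    apply Subtype.ext
    funext a
    have h1 : (r • (x : M → Qb)) a = (r • (y : M → Qb)) a := congrFun (congrArg Subtype.val hxy) a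
    rw [Pi.smul_apply, Pi.smul_apply, Algebra.smul_def, Algebra.smul_def] at h1
    exact mul_left_cancel₀ hr0 h1
  obtain ⟨n, b⟩ : Σ n : ℕ, Module.Basis (Fin n) (RR ℓ) H := Module.basisOfFiniteTypeTorsionFree'
  refine ⟨Fin n, inferInstance, b, ?_, ?_⟩
  · apply linearIndependent_of_equivariant
    · intro i σ a
      exact heq _ (b i).2 σ a
    · rw [← LinearIndependent.iff_fractionRing (RR ℓ) ℚ]
      have h1 := b.linearIndependent.map' (Subalgebra.toSubmodule H).subtype
        (Submodule.ker_subtype _)
      exact h1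
  · rw [eq_top_iff, ← hsp]
    apply Submodule.span_le.mpr
    intro h hh
    have h1 := b.sum_repr ⟨h, hh⟩
    have h2 : h = ∑ i, (b.repr ⟨h, hh⟩ i) • ((b i : H) : M → Qb) := by
      have h4 := congrArg (Subalgebra.toSubmodule H).subtype h1
      rw [map_sum] at h4
      exact h4.symm
    rw [h2]
    refine Submodule.sum_mem _ fun i _ => ?_
    have h3 : (b.repr ⟨h, hh⟩ i) • ((b i : H) : M → Qb) =
        (algebraMap (RR ℓ) Qb (b.repr ⟨h, hh⟩ i)) • ((b i : H) : M → Qb) := by
      rw [algebraMap_smul]
    rw [h3]
    exact Submodule.smul_mem _ _ (Submodule.subset_span ⟨i, rfl⟩)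

end Fermat.Agent.S19.A
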