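import Mathlib

/-!
# S19, layer A, key A-HOPF : Hopf algebra structure on a subalgebra of `M → Ω` with a good basis   (helper26)

`R` a commutative ring, `Ω` a field, `R → Ω` injective, `M` a finite abelian group, `H : Subalgebra R (M → Ω)`
with an `R`-basis `b` which is an `Ω`-basis of `M → Ω`, closed under `h ↦ h (a + a')`, `h ↦ h 0`, `h ↦ h ∘ neg`
(structure `Dat`).  Then `H` is a finite flat cocommutative Hopf algebra over `R` whose `Ω`-points are `M`
(`hopf_of_dat`).
-/

set_option autoImplicit false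

open TensorProduct

noncomputable section

namespace Fermat.Agent.S19.Hopf

variable {R Ω : Type} [CommRing R] [Field Ω] [Algebra R Ω]

section Sep

variable {A B A' B' : Type} [CommRing A] [Algebra R A] [CommRing B] [Algebra R B]
  [CommRing A'] [Algebra R A'] [CommRing B'] [Algebra R B']
  {ιA ιB X Y : Type}

/-- the product of two points -/
def bx (φ : A →ₐ[R] Ω) (ψ : B →ₐ[R] Ω) : A ⊗[R] B →ₐ[R] Ω :=
  Algebra.TensorProduct.lift φ ψ (fun _ _ => Commute.all _ _)

@[simp] theorem bx_tmul (φ : A →ₐ[R] Ω) (ψ : B →ₐ[R] Ω) (x : A) (y : B) :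
    bx φ ψ (x ⊗ₜ[R] y) = φ x * ψ y := by
  simp [bx]

theorem bx_map (φ : A' →ₐ[R] Ω) (ψ : B' →ₐ[R] Ω) (f : A →ₐ[R] A') (g : B →ₐ[R] B') :
    (bx φ ψ).comp (Algebra.TensorProduct.map f g) = bx (φ.comp f) (ψ.comp g) := by
  ext <;> simp

/-- the values of the basis at the points are linearly independent over `Ω` -/
def Sep (bA : Module.Basis ιA R A) (e : X → A →ₐ[R] Ω) : Prop :=
  LinearIndependent Ω (fun i : ιA => fun x : X => e x (bA i))

theorem Sep.tensor [Fintype ιA] [Fintype ιB] {bA : Module.Basis ιA R A} {bB : Module.Basis ιB R B}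
    {e : X → A →ₐ[R] Ω} {e' : Y → B →ₐ[R] Ω} (hA : Sep bA e) (hB : Sep bB e') :
    Sep (bA.tensorProduct bB) (fun p : X × Y => bx (e p.1) (e' p.2)) := by
  rw [Sep, Fintype.linearIndependent_iff] at *
  intro g hg p
  obtain ⟨i, j⟩ := p
  have h1 : ∀ (x : X) (y : Y), ∑ i, ∑ j, g (i, j) * (e x (bA i) * e' y (bB j)) = 0 := by
    intro x y
    have := congrFun hg (x, y)
    simpa [Fintype.sum_prod_type, Finset.sum_apply] using this
  have h2 : ∀ (y : Y) (i : ιA), ∑ j, g (i, j) * e' y (bB j) = 0 := by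
    intro y
    apply hA
    funext x
    have := h1 x y
    simp only [Finset.sum_apply, Pi.smul_apply, smul_eq_mul, Pi.zero_apply]
    rw [← this]
    refine Finset.sum_congr rfl fun i _ => ?_
    rw [Finset.sum_mul]
    refine Finset.sum_congr rfl fun j _ => ?_
    ring
  refine hB (fun j => g (i, j)) ?_ j
  funext y
  simpa [Finset.sum_apply] using h2 y i

theorem Sep.eq_zero [Fintype ιA] (hinj : Function.Injective (algebraMap R Ω))
    {bA : Module.Basis ιA R A} {e : X → A →ₐ[R] Ω} (hA : Sep bA e) {t : A}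
    (h : ∀ x, e x t = 0) : t = 0 := by
  rw [Sep, Fintype.linearIndependent_iff] at hA
  have h1 : ∀ i, algebraMap R Ω (bA.repr t i) = 0 := by
    apply hA
    funext x
    have h2 := h x
    rw [← bA.sum_repr t, map_sum] at h2
    simp only [Finset.sum_apply, Pi.smul_apply, smul_eq_mul, Pi.zero_apply]
    rw [← h2]
    refine Finset.sum_congr rfl fun i _ => ?_
    rw [map_smul, Algebra.smul_def]
  have h3 : bA.repr t = 0 := by
    ext i
    exact hinj (by rw [h1 i, Finsupp.zero_apply, map_zero])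
  exact bA.repr.map_eq_zero_iff.1 h3

theorem Sep.ext [Fintype ιA] (hinj : Function.Injective (algebraMap R Ω))
    {bA : Module.Basis ιA R A} {e : X → A →ₐ[R] Ω} (hA : Sep bA e) {t t' : A}
    (h : ∀ x, e x t = e x t') : t = t' := by
  rw [← sub_eq_zero]
  exact hA.eq_zero hinj fun x => by rw [map_sub, h x, sub_self]

/-- the points separate the elements -/
def Sp (e : X → A →ₐ[R] Ω) : Prop := ∀ t : A, (∀ x, e x t = 0) → t = 0

theorem Sep.sp [Fintype ιA] (hinj : Function.Injective (algebraMap R Ω))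
    {bA : Module.Basis ιA R A} {e : X → A →ₐ[R] Ω} (hA : Sep bA e) : Sp e :=
  fun _ h => hA.eq_zero hinj h

theorem Sep.sp_tensor [Fintype ιA] {bA : Module.Basis ιA R A}
    {e : X → A →ₐ[R] Ω} {e' : Y → B →ₐ[R] Ω} (hA : Sep bA e) (hB : Sp e') :
    Sp (fun p : X × Y => bx (e p.1) (e' p.2)) := by
  intro t h
  obtain ⟨c, rfl⟩ := TensorProduct.eq_repr_basis_left bA t
  have hc : ∀ i, c i = 0 := by
    intro i
    apply hB
    intro y
    rw [Sep, Fintype.linearIndependent_iff] at hA
    refine hA (fun i => e' y (c i)) ?_ i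
    funext x
    have h1 := h (x, y)
    rw [Finsupp.sum_fintype _ _ (by simp), map_sum] at h1
    simpa [Finset.sum_apply, mul_comm] using h1
  have : c = 0 := Finsupp.ext hc
  rw [this]
  simp

theorem Sp.ext {e : X → A →ₐ[R] Ω} (hA : Sp e) {t t' : A} (h : ∀ x, e x t = e x t') : t = t' := by
  rw [← sub_eq_zero]
  exact hA _ fun x => by rw [map_sub, h x, sub_self]

theorem bx_assoc {C : Type} [CommRing C] [Algebra R C] (φ : A →ₐ[R] Ω) (ψ : B →ₐ[R] Ω)
    (χ : C →ₐ[R] Ω) :
    (bx φ (bx ψ χ)).comp (Algebra.TensorProduct.assoc R R R A B C).toAlgHom = bx (bx φ ψ) χ := by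
  ext <;> simp [Algebra.TensorProduct.one_def]

theorem bx_comm (φ : A →ₐ[R] Ω) (ψ : B →ₐ[R] Ω) (t : A ⊗[R] B) :
    bx ψ φ (TensorProduct.comm R A B t) = bx φ ψ t := by
  induction t with
  | zero => simp
  | tmul x y => simp [mul_comm]
  | add x y hx hy => rw [map_add, map_add, map_add, hx, hy]

theorem comp_lid (φ : A →ₐ[R] Ω) :
    φ.comp (Algebra.TensorProduct.lid R A).toAlgHom = bx (Algebra.ofId R Ω) φ := by
  ext; simp

theorem comp_rid (φ : A →ₐ[R] Ω) :
    φ.comp (Algebra.TensorProduct.rid R R A).toAlgHom = bx φ (Algebra.ofId R Ω) := by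
  ext; simp

theorem comp_lift (φ : B →ₐ[R] Ω) (f g : A →ₐ[R] B) :
    φ.comp (Algebra.TensorProduct.lift f g (fun _ _ => Commute.all _ _)) =
      bx (φ.comp f) (φ.comp g) := by
  ext <;> simp

end Sep


section Abs

variable {M ι A : Type} [AddCommGroup M] [Fintype ι] [CommRing A] [Algebra R A]

/-- the hypotheses of the lemma HOPF, for an abstract algebra with points `e a` -/
structure ADat (e : M → A →ₐ[R] Ω) (b : Module.Basis ι R A) : Prop where
  inj : Function.Injective (algebraMap R Ω)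
  li : LinearIndependent Ω (fun i : ι => fun a : M => e a (b i))
  sp : ⊤ ≤ Submodule.span Ω (Set.range fun i : ι => fun a : M => e a (b i))
  comul : ∀ h : A, ∃ t : A ⊗[R] A, ∀ a a', bx (e a) (e a') t = e (a + a') h
  counit : ∀ h : A, ∃ r : R, e 0 h = algebraMap R Ω r
  neg : ∀ h : A, ∃ h' : A, ∀ a, e a h' = e (-a) h

variable {e : M → A →ₐ[R] Ω} {b : Module.Basis ι R A}

namespace ADat

variable (D : ADat e b)

include D

theorem sep1 : Sep b e := D.li

theorem sp1 : Sp e := D.sep1.sp D.inj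

theorem sp2 : Sp (fun p : M × M => bx (e p.1) (e p.2)) := D.sep1.sp_tensor D.sp1

theorem sp3 : Sp (fun p : M × (M × M) => bx (e p.1) (bx (e p.2.1) (e p.2.2))) := by
  have h := D.sep1.sp_tensor D.sp2
  exact h

theorem ext1 {h h' : A} (H : ∀ a, e a h = e a h') : h = h' := D.sp1.ext H

theorem ext2 {t t' : A ⊗[R] A} (H : ∀ a a', bx (e a) (e a') t = bx (e a) (e a') t') :
    t = t' :=
  D.sp2.ext fun p => H p.1 p.2

theorem ext3 {t t' : A ⊗[R] (A ⊗[R] A)}
    (H : ∀ a a' a'', bx (e a) (bx (e a') (e a'')) t =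
      bx (e a) (bx (e a') (e a'')) t') : t = t' :=
  D.sp3.ext fun p => H p.1 p.2.1 p.2.2

theorem hom_ext1 {C : Type} [CommRing C] [Algebra R C] {f g : C →ₐ[R] A}
    (H : ∀ a, (e a).comp f = (e a).comp g) : f = g :=
  AlgHom.ext fun c => D.ext1 fun a => DFunLike.congr_fun (H a) c

theorem hom_ext2 {C : Type} [CommRing C] [Algebra R C] {f g : C →ₐ[R] A ⊗[R] A}
    (H : ∀ a a', (bx (e a) (e a')).comp f = (bx (e a) (e a')).comp g) : f = g :=
  AlgHom.ext fun c => D.ext2 fun a a' => DFunLike.congr_fun (H a a') c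

theorem hom_ext3 {C : Type} [CommRing C] [Algebra R C] {f g : C →ₐ[R] A ⊗[R] (A ⊗[R] A)}
    (H : ∀ a a' a'', (bx (e a) (bx (e a') (e a''))).comp f =
      (bx (e a) (bx (e a') (e a''))).comp g) : f = g :=
  AlgHom.ext fun c => D.ext3 fun a a' a'' => DFunLike.congr_fun (H a a' a'') c

/-- the comultiplication, as a function -/
def del0 (h : A) : A ⊗[R] A := (D.comul h).choose

theorem del0_spec (h : A) (a a' : M) :
    bx (e a) (e a') (D.del0 h) = e (a + a') h := (D.comul h).choose_spec a a'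

/-- the comultiplication -/
def del : A →ₐ[R] A ⊗[R] A where
  toFun := D.del0
  map_one' := D.ext2 fun a a' => by rw [del0_spec, map_one, map_one]
  map_mul' x y := D.ext2 fun a a' => by
    rw [del0_spec, map_mul, map_mul, del0_spec, del0_spec]
  map_zero' := D.ext2 fun a a' => by rw [del0_spec, map_zero, map_zero]
  map_add' x y := D.ext2 fun a a' => by
    rw [del0_spec, map_add, map_add, del0_spec, del0_spec]
  commutes' r := D.ext2 fun a a' => by
    rw [del0_spec, AlgHom.commutes, AlgHom.commutes]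

theorem bx_del (a a' : M) : (bx (e a) (e a')).comp D.del = e (a + a') :=
  AlgHom.ext fun h => D.del0_spec h a a'

/-- the counit, as a function -/
def eps0 (h : A) : R := (D.counit h).choose

theorem eps0_spec (h : A) : algebraMap R Ω (D.eps0 h) = e 0 h :=
  (D.counit h).choose_spec.symm

/-- the counit -/
def eps : A →ₐ[R] R where
  toFun := D.eps0
  map_one' := D.inj (by rw [eps0_spec, map_one, map_one])
  map_mul' x y := D.inj (by rw [eps0_spec, map_mul, map_mul, eps0_spec, eps0_spec])
  map_zero' := D.inj (by rw [eps0_spec, map_zero, map_zero])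
  map_add' x y := D.inj (by rw [eps0_spec, map_add, map_add, eps0_spec, eps0_spec])
  commutes' r := D.inj (by rw [eps0_spec, AlgHom.commutes]; rfl)

theorem ofId_eps : (Algebra.ofId R Ω).comp D.eps = e 0 :=
  AlgHom.ext fun h => D.eps0_spec h

/-- the antipode, as a function -/
def anti0 (h : A) : A := (D.neg h).choose

theorem anti0_spec (h : A) (a : M) : e a (D.anti0 h) = e (-a) h :=
  (D.neg h).choose_spec a

/-- the antipode -/
def anti : A →ₐ[R] A where
  toFun := D.anti0
  map_one' := D.ext1 fun a => by rw [anti0_spec, map_one, map_one]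
  map_mul' x y := D.ext1 fun a => by rw [anti0_spec, map_mul, map_mul, anti0_spec, anti0_spec]
  map_zero' := D.ext1 fun a => by rw [anti0_spec, map_zero, map_zero]
  map_add' x y := D.ext1 fun a => by rw [anti0_spec, map_add, map_add, anti0_spec, anti0_spec]
  commutes' r := D.ext1 fun a => by rw [anti0_spec, AlgHom.commutes, AlgHom.commutes]

theorem e_anti (a : M) : (e a).comp D.anti = e (-a) :=
  AlgHom.ext fun h => D.anti0_spec h a

theorem coassoc : (Algebra.TensorProduct.assoc R R R A A A).toAlgHom.comp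
      ((Algebra.TensorProduct.map D.del (.id R A)).comp D.del)
      = (Algebra.TensorProduct.map (.id R A) D.del).comp D.del := by
  refine D.hom_ext3 fun a a' a'' => ?_
  rw [← AlgHom.comp_assoc, bx_assoc, ← AlgHom.comp_assoc, bx_map, bx_del, AlgHom.comp_id, bx_del,
    ← AlgHom.comp_assoc, bx_map, bx_del, AlgHom.comp_id, bx_del, add_assoc]

theorem rTensor : (Algebra.TensorProduct.map D.eps (.id R A)).comp D.del
      = (Algebra.TensorProduct.lid R A).symm := by
  have h1 : (Algebra.TensorProduct.lid R A).toAlgHom.comp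
      ((Algebra.TensorProduct.map D.eps (.id R A)).comp D.del) = AlgHom.id R A := by
    refine D.hom_ext1 fun a => ?_
    rw [← AlgHom.comp_assoc, comp_lid, ← AlgHom.comp_assoc, bx_map, ofId_eps, AlgHom.comp_id,
      bx_del, zero_add]
  refine AlgHom.ext fun h => ?_
  have h2 := DFunLike.congr_fun h1 h
  apply (Algebra.TensorProduct.lid R A).injective
  simpa using h2

theorem lTensor : (Algebra.TensorProduct.map (.id R A) D.eps).comp D.del
      = (Algebra.TensorProduct.rid R R A).symm := by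
  have h1 : (Algebra.TensorProduct.rid R R A).toAlgHom.comp
      ((Algebra.TensorProduct.map (.id R A) D.eps).comp D.del) = AlgHom.id R A := by
    refine D.hom_ext1 fun a => ?_
    rw [← AlgHom.comp_assoc, comp_rid, ← AlgHom.comp_assoc, bx_map, ofId_eps, AlgHom.comp_id,
      bx_del, add_zero]
  refine AlgHom.ext fun h => ?_
  have h2 := DFunLike.congr_fun h1 h
  apply (Algebra.TensorProduct.rid R R A).injective
  simpa using h2

/-- the bialgebra structure -/
@[reducible] def bialg : Bialgebra R A :=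
  Bialgebra.ofAlgHom D.del D.eps D.coassoc D.rTensor D.lTensor

theorem comulAlgHom_eq : @Bialgebra.comulAlgHom R A _ _ D.bialg = D.del := rfl

theorem counitAlgHom_eq : @Bialgebra.counitAlgHom R A _ _ D.bialg = D.eps := rfl

theorem anti_left : ((Algebra.TensorProduct.lift D.anti (.id R A) fun _ ↦ Commute.all _).comp
        D.del) = (Algebra.ofId R A).comp D.eps := by
  refine D.hom_ext1 fun a => ?_
  have h0 : (e a).comp (Algebra.ofId R A) = Algebra.ofId R Ω := by ext
  rw [← AlgHom.comp_assoc, comp_lift, e_anti, AlgHom.comp_id, bx_del, neg_add_cancel,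
    ← AlgHom.comp_assoc, h0, ofId_eps]

theorem anti_right : ((Algebra.TensorProduct.lift (.id R A) D.anti fun _ _ ↦ Commute.all _ _).comp
        D.del) = (Algebra.ofId R A).comp D.eps := by
  refine D.hom_ext1 fun a => ?_
  have h0 : (e a).comp (Algebra.ofId R A) = Algebra.ofId R Ω := by ext
  rw [← AlgHom.comp_assoc, comp_lift, e_anti, AlgHom.comp_id, bx_del, add_neg_cancel,
    ← AlgHom.comp_assoc, h0, ofId_eps]

/-- the Hopf algebra structure -/
@[reducible] def hopf : HopfAlgebra R A :=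
  letI := D.bialg
  HopfAlgebra.ofAlgHom D.anti D.anti_left D.anti_right

theorem cocomm : @Coalgebra.IsCocomm R A _ _ _ D.hopf.toBialgebra.toCoalgebra := by
  let _ := D.hopf
  refine ⟨LinearMap.ext fun h => D.ext2 fun a a' => ?_⟩
  show bx (e a) (e a') (TensorProduct.comm R A A (D.del h)) = bx (e a) (e a') (D.del h)
  rw [bx_comm]
  have h1 := DFunLike.congr_fun (D.bx_del a a') h
  have h2 := DFunLike.congr_fun (D.bx_del a' a) h
  rw [AlgHom.comp_apply] at h1 h2
  rw [h1, h2, add_comm]

theorem e_injective : Function.Injective e := by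
  classical
  intro a a' h
  by_contra hne
  have h1 : ∀ f ∈ Submodule.span Ω (Set.range fun i : ι => fun a : M => e a (b i)),
      f a = f a' := by
    intro f hf
    induction hf using Submodule.span_induction with
    | mem x hx => obtain ⟨i, rfl⟩ := hx; show e a (b i) = e a' (b i); rw [h]
    | zero => rfl
    | add x y _ _ hx hy => rw [Pi.add_apply, Pi.add_apply, hx, hy]
    | smul c x _ hx => rw [Pi.smul_apply, Pi.smul_apply, hx]
  have h2 := h1 (Pi.single a 1) (D.sp trivial)
  rw [Pi.single_eq_same, Pi.single_eq_of_ne (Ne.symm hne)] at h2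
  exact one_ne_zero h2

theorem e_surjective [Finite M] : Function.Surjective e := by
  classical
  intro φ
  have := Fintype.ofFinite M
  let v : ι → M → Ω := fun i a => e a (b i)
  let B : Module.Basis ι Ω (M → Ω) := Module.Basis.mk D.li D.sp
  let Φ : (M → Ω) →ₗ[Ω] Ω := B.constr Ω (fun i => φ (b i))
  have hv : ∀ i, Φ (v i) = φ (b i) := by
    intro i
    have h := B.constr_basis Ω (fun i => φ (b i)) i
    rwa [Module.Basis.mk_apply] at h
  have hE : ∀ h : A, Φ (fun a => e a h) = φ h := by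
    intro h
    have h1 : (fun a => e a h) = ∑ i, algebraMap R Ω (b.repr h i) • v i := by
      funext a
      conv_lhs => rw [← b.sum_repr h]
      simp [map_sum, Finset.sum_apply, Algebra.smul_def, v]
    rw [h1, map_sum]
    conv_rhs => rw [← b.sum_repr h, map_sum]
    refine Finset.sum_congr rfl fun i _ => ?_
    rw [map_smul, hv, map_smul, smul_eq_mul, Algebra.smul_def]
  have hmul : ∀ x y, Φ (x * y) = Φ x * Φ y := by
    intro x y
    have hx : x ∈ Submodule.span Ω (Set.range v) := D.sp trivial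
    have hy : y ∈ Submodule.span Ω (Set.range v) := D.sp trivial
    induction hx using Submodule.span_induction with
    | mem x hx =>
      obtain ⟨i, rfl⟩ := hx
      induction hy using Submodule.span_induction with
      | mem y hy =>
        obtain ⟨j, rfl⟩ := hy
        have h1 : v i * v j = fun a => e a (b i * b j) := by funext a; simp [v]
        rw [h1, hE, hv, hv, map_mul]
      | zero => simp
      | add y y' _ _ h1 h2 => rw [mul_add, map_add, h1, h2, map_add, mul_add]
      | smul c y _ h1 =>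
        rw [mul_smul_comm, map_smul, h1, map_smul, smul_eq_mul, smul_eq_mul]; ring
    | zero => simp
    | add x x' _ _ h1 h2 => rw [add_mul, map_add, h1, h2, map_add, add_mul]
    | smul c x _ h1 =>
      rw [smul_mul_assoc, map_smul, h1, map_smul, smul_eq_mul, smul_eq_mul]; ring
  have h1 : Φ 1 = 1 := by
    have h : (1 : M → Ω) = fun a => e a 1 := by funext a; simp
    rw [h, hE, map_one]
  have h2 : ∃ a, Φ (Pi.single a 1) ≠ 0 := by
    by_contra hcon
    push Not at hcon
    have h : (1 : M → Ω) = ∑ a, Pi.single a 1 := (Finset.univ_sum_single (1 : M → Ω)).symm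
    rw [h, map_sum, Finset.sum_eq_zero (fun a _ => hcon a)] at h1
    exact zero_ne_one h1
  obtain ⟨a, ha⟩ := h2
  refine ⟨a, AlgHom.ext fun h => ?_⟩
  have h3 : (fun a' => e a' h) * Pi.single a 1 = e a h • Pi.single a (1 : Ω) := by
    funext a'
    by_cases haa : a' = a
    · subst haa; simp
    · simp [Pi.single_eq_of_ne haa]
  have h4 := hmul (fun a' => e a' h) (Pi.single a 1)
  rw [h3, map_smul, hE, smul_eq_mul] at h4
  exact mul_right_cancel₀ ha h4

/-- the points -/
def pts [Finite M] : M ≃ (A →ₐ[R] Ω) := Equiv.ofBijective e ⟨D.e_injective, D.e_surjective⟩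

theorem pts_apply [Finite M] (a : M) : D.pts a = e a := rfl

theorem e_pts_symm [Finite M] (f : A →ₐ[R] Ω) : e (D.pts.symm f) = f := D.pts.apply_symm_apply f

/-- **HOPF**, abstract form. -/
theorem main [Finite M] :
    ∃ (H' : Type) (_ : CommRing H') (_ : HopfAlgebra R H'),
      Module.Finite R H' ∧ Module.Flat R H' ∧ Coalgebra.IsCocomm R H' ∧
      ∃ E : WithConv (H' →ₐ[R] Ω) ≃ M,
        (∀ f g, E (f * g) = E f + E g) ∧
        ∀ (s : Ω → Ω) (s' : M → M), (∀ (h : A) (a : M), s (e a h) = e (s' a) h) →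
          ∀ f g : WithConv (H' →ₐ[R] Ω), (∀ h : H', g h = s (f h)) → E g = s' (E f) := by
  refine ⟨A, inferInstance, D.hopf, Module.Finite.of_basis b, ?_, D.cocomm,
    (WithConv.equiv _).trans D.pts.symm, ?_, ?_⟩
  · have : Module.Free R A := Module.Free.of_basis b
    exact inferInstanceAs (Module.Flat R A)
  · intro f g
    let _ := D.hopf
    show D.pts.symm (f * g).ofConv = D.pts.symm f.ofConv + D.pts.symm g.ofConv
    rw [Equiv.symm_apply_eq, pts_apply, ← D.bx_del, D.e_pts_symm, D.e_pts_symm]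
    refine AlgHom.ext fun h => ?_
    exact AlgHom.convMul_apply f g h
  · intro s s' hs f g hfg
    show D.pts.symm g.ofConv = s' (D.pts.symm f.ofConv)
    rw [Equiv.symm_apply_eq, pts_apply]
    refine AlgHom.ext fun h => ?_
    rw [← hs, D.e_pts_symm]
    exact hfg h

end ADat

end Abs


section Main

variable {M ι : Type} [AddCommGroup M] [Fintype ι] (H : Subalgebra R (M → Ω))

/-- evaluation at `a` -/
def ev (a : M) : H →ₐ[R] Ω := (Pi.evalAlgHom R (fun _ : M => Ω) a).comp H.val

@[simp] theorem ev_apply (a : M) (h : H) : ev H a h = (h : M → Ω) a := rfl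

/-- the hypotheses of the lemma HOPF -/
structure Dat (b : Module.Basis ι R H) : Prop where
  inj : Function.Injective (algebraMap R Ω)
  li : LinearIndependent Ω (fun i => ((b i : H) : M → Ω))
  sp : ⊤ ≤ Submodule.span Ω (Set.range fun i => ((b i : H) : M → Ω))
  comul : ∀ h : H, ∃ t : H ⊗[R] H, ∀ a a', bx (ev H a) (ev H a') t = (h : M → Ω) (a + a')
  counit : ∀ h : H, ∃ r : R, (h : M → Ω) 0 = algebraMap R Ω r
  neg : ∀ h : H, ∃ h' : H, ∀ a, (h' : M → Ω) a = (h : M → Ω) (-a)

variable {H} {b : Module.Basis ι R H}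

theorem Dat.adat (D : Dat H b) : ADat (ev H) b :=
  ⟨D.inj, D.li, D.sp, D.comul, D.counit, D.neg⟩

/-- **HOPF**. -/
theorem hopf_of_dat [Finite M] (D : Dat H b) :
    ∃ (H' : Type) (_ : CommRing H') (_ : HopfAlgebra R H'),
      Module.Finite R H' ∧ Module.Flat R H' ∧ Coalgebra.IsCocomm R H' ∧
      ∃ E : WithConv (H' →ₐ[R] Ω) ≃ M,
        (∀ f g, E (f * g) = E f + E g) ∧
        ∀ (s : Ω → Ω) (s' : M → M),
          (∀ (h : H) (a : M), s ((h : M → Ω) a) = (h : M → Ω) (s' a)) →
          ∀ f g : WithConv (H' →ₐ[R] Ω), (∀ h : H', g h = s (f h)) → E g = s' (E f) :=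
  D.adat.main

omit [Fintype ι] in
theorem bx_ev_sum {κ : Type} (s : Finset κ) (r : κ → R) (u v : κ → H) (a a' : M) :
    bx (ev H a) (ev H a') (∑ k ∈ s, r k • (u k ⊗ₜ[R] v k)) =
      ∑ k ∈ s, algebraMap R Ω (r k) * ((u k : M → Ω) a * (v k : M → Ω) a') := by
  rw [map_sum]
  refine Finset.sum_congr rfl fun k _ => ?_
  rw [map_smul, bx_tmul, Algebra.smul_def, ev_apply, ev_apply]

omit [Fintype ι] in
/-- stability under `h ↦ h ∘ neg` follows from the comultiplication (`M` finite). -/
theorem neg_of_comul [Finite M]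
    (hc : ∀ h : H, ∃ t : H ⊗[R] H, ∀ a a', bx (ev H a) (ev H a') t = (h : M → Ω) (a + a'))
    (h : H) : ∃ h' : H, ∀ a, (h' : M → Ω) a = (h : M → Ω) (-a) := by
  have key : ∀ (k : ℕ) (h : H), ∃ h' : H, ∀ a, (h' : M → Ω) a = (h : M → Ω) ((k + 1) • a) := by
    intro k
    induction k with
    | zero => intro h; exact ⟨h, fun a => by simp⟩
    | succ k ih =>
      intro h
      obtain ⟨t, ht⟩ := hc h
      have h1 : ∀ t : H ⊗[R] H, ∃ h' : H, ∀ a,
          (h' : M → Ω) a = bx (ev H ((k + 1) • a)) (ev H a) t := by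
        intro t
        induction t with
        | zero => exact ⟨0, fun a => by rw [map_zero]; rfl⟩
        | tmul u v =>
          obtain ⟨u', hu'⟩ := ih u
          refine ⟨u' * v, fun a => ?_⟩
          rw [bx_tmul, ev_apply, ev_apply, ← hu']
          rfl
        | add x y hx hy =>
          obtain ⟨x', hx'⟩ := hx
          obtain ⟨y', hy'⟩ := hy
          refine ⟨x' + y', fun a => ?_⟩
          rw [map_add, ← hx', ← hy']
          rfl
      obtain ⟨h', hh'⟩ := h1 t
      refine ⟨h', fun a => ?_⟩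
      rw [hh', ht, succ_nsmul a (k + 1)]
  have hn : 0 < Nat.card M := Nat.card_pos
  obtain ⟨h', hh'⟩ := key (2 * Nat.card M - 2) h
  refine ⟨h', fun a => ?_⟩
  rw [hh']
  have h2 : (2 * Nat.card M - 2 + 1) • a + a = 0 := by
    rw [← succ_nsmul]
    have : 2 * Nat.card M - 2 + 1 + 1 = Nat.card M * 2 := by omega
    rw [this, mul_nsmul', card_nsmul_eq_zero']
  rw [eq_neg_of_add_eq_zero_left h2]

end Main

section Adjoin

variable {M ι : Type} [AddCommGroup M] [Fintype ι] {S : Set (M → Ω)}

omit [Fintype ι] in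
theorem comul_of_adjoin
    (h0 : ∀ f ∈ S, ∃ t : (Algebra.adjoin R S) ⊗[R] (Algebra.adjoin R S),
      ∀ a a', bx (ev _ a) (ev _ a') t = f (a + a'))
    (h : Algebra.adjoin R S) : ∃ t : (Algebra.adjoin R S) ⊗[R] (Algebra.adjoin R S),
      ∀ a a', bx (ev _ a) (ev _ a') t = (h : M → Ω) (a + a') := by
  obtain ⟨f, hf⟩ := h
  show ∃ t : (Algebra.adjoin R S) ⊗[R] (Algebra.adjoin R S),
      ∀ a a', bx (ev _ a) (ev _ a') t = f (a + a')
  induction hf using Algebra.adjoin_induction with
  | mem x hx => exact h0 x hx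
  | algebraMap r => exact ⟨algebraMap R _ r, fun a a' => by rw [AlgHom.commutes]; rfl⟩
  | add x y _ _ hx hy =>
    obtain ⟨t, ht⟩ := hx
    obtain ⟨t', ht'⟩ := hy
    exact ⟨t + t', fun a a' => by rw [map_add, ht, ht']; rfl⟩
  | mul x y _ _ hx hy =>
    obtain ⟨t, ht⟩ := hx
    obtain ⟨t', ht'⟩ := hy
    exact ⟨t * t', fun a a' => by rw [map_mul, ht, ht']; rfl⟩

omit [Fintype ι] in
theorem counit_of_adjoin (h0 : ∀ f ∈ S, ∃ r : R, f 0 = algebraMap R Ω r)
    (h : Algebra.adjoin R S) : ∃ r : R, (h : M → Ω) 0 = algebraMap R Ω r := by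
  obtain ⟨f, hf⟩ := h
  show ∃ r : R, f 0 = algebraMap R Ω r
  induction hf using Algebra.adjoin_induction with
  | mem x hx => exact h0 x hx
  | algebraMap r => exact ⟨r, rfl⟩
  | add x y _ _ hx hy =>
    obtain ⟨t, ht⟩ := hx
    obtain ⟨t', ht'⟩ := hy
    exact ⟨t + t', by rw [map_add, ← ht, ← ht']; rfl⟩
  | mul x y _ _ hx hy =>
    obtain ⟨t, ht⟩ := hx
    obtain ⟨t', ht'⟩ := hy
    exact ⟨t * t', by rw [map_mul, ← ht, ← ht']; rfl⟩

omit [Fintype ι] in
theorem equivariant_of_adjoin (s : Ω →+* Ω) (hs : ∀ r : R, s (algebraMap R Ω r) = algebraMap R Ω r)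
    (s' : M → M) (h0 : ∀ f ∈ S, ∀ a, s (f a) = f (s' a))
    (h : Algebra.adjoin R S) (a : M) : s ((h : M → Ω) a) = (h : M → Ω) (s' a) := by
  obtain ⟨f, hf⟩ := h
  show s (f a) = f (s' a)
  induction hf using Algebra.adjoin_induction with
  | mem x hx => exact h0 x hx a
  | algebraMap r => exact hs r
  | add x y _ _ hx hy => rw [Pi.add_apply, Pi.add_apply, map_add, hx, hy]
  | mul x y _ _ hx hy => rw [Pi.mul_apply, Pi.mul_apply, map_mul, hx, hy]

/-- **HOPF** for `H = Algebra.adjoin R S` : everything is checked on the generators, the antipode is automatic. -/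
theorem hopf_of_adjoin [Finite M] (b : Module.Basis ι R (Algebra.adjoin R S))
    (inj : Function.Injective (algebraMap R Ω))
    (li : LinearIndependent Ω (fun i => ((b i : Algebra.adjoin R S) : M → Ω)))
    (sp : ⊤ ≤ Submodule.span Ω (Set.range fun i => ((b i : Algebra.adjoin R S) : M → Ω)))
    (comul : ∀ f ∈ S, ∃ t : (Algebra.adjoin R S) ⊗[R] (Algebra.adjoin R S),
      ∀ a a', bx (ev _ a) (ev _ a') t = f (a + a'))
    (counit : ∀ f ∈ S, ∃ r : R, f 0 = algebraMap R Ω r) :
    ∃ (H' : Type) (_ : CommRing H') (_ : HopfAlgebra R H'),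
      Module.Finite R H' ∧ Module.Flat R H' ∧ Coalgebra.IsCocomm R H' ∧
      ∃ E : WithConv (H' →ₐ[R] Ω) ≃ M,
        (∀ f g, E (f * g) = E f + E g) ∧
        ∀ (s : Ω →+* Ω) (s' : M → M), (∀ r : R, s (algebraMap R Ω r) = algebraMap R Ω r) →
          (∀ f ∈ S, ∀ a, s (f a) = f (s' a)) →
          ∀ f g : WithConv (H' →ₐ[R] Ω), (∀ h : H', g h = s (f h)) → E g = s' (E f) := by
  have D : Dat (Algebra.adjoin R S) b :=
    ⟨inj, li, sp, comul_of_adjoin comul, counit_of_adjoin counit,
      neg_of_comul (comul_of_adjoin comul)⟩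
  obtain ⟨H', i1, i2, h1, h2, h3, E, h4, h5⟩ := hopf_of_dat D
  exact ⟨H', i1, i2, h1, h2, h3, E, h4, fun s s' hs h0 f g hfg =>
    h5 s s' (equivariant_of_adjoin s hs s' h0) f g hfg⟩

end Adjoin

end Fermat.Agent.S19.Hopf
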