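import Fermat.Agent.S19.A.RLoc

/-!
# S19 / A / Integral      [keys S19/A-INT (isIntegral_of_conj_mem), S19/A-SC (exists_scale)]

* `isIntegral_of_conj_mem`: `f = minpoly ℚ z` splits in `Qb`, every root is `σ z` for some `σ : GQ`
  (`minpoly` roots are conjugates: `IsConjRoot`, `isConjRoot_iff_exists_algEquiv` (normal extension), or `Normal`/`AlgEquiv` API), so all roots lie in `A`; the coefficients are
  `±` elementary symmetric functions of the roots (`Polynomial.coeff_eq_esymm_roots_of_splits` …), so lie in `A ∩ ℚ = R` (`mem_R_of_mem_A`).  So `f` is the image of a monic polynomial of `R[X]`.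
* `exists_scale` (SC): take `0 ≠ P = a_m X^m + … + a_0 ∈ R[X]` with `P(α) = 0` and some coefficient a unit of `R` (clear denominators of `minpoly ℚ α`, divide by the largest
  power of `ℓ`; a unit of `R` = element whose inverse in `ℚ` lies in `R`).  `s` := the LARGEST index with `a_s` a unit.  `d := a_m α^(m-s) + … + a_(s+1) α + a_s`.
  - `d` and `d α` are integral over `R`: an element of `Qb` is integral over `R` iff it lies in every valuation subring `B ⊇ R` (`iInf_valuationSubring_superset`);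
    if `α ∈ B` clear; if `α⁻¹ ∈ B`: `d = -(a_(s-1) α⁻¹ + … + a_0 α^(-s))`, `d α = -(a_(s-1) + a_(s-2) α⁻¹ + … )`.
  - `d` is a unit of `A`: `a_i ∈ ℓ R ⊆ m_A` for `i > s`, `α ∈ A`, `a_s` unit.
-/

set_option autoImplicit false

noncomputable section

namespace Fermat.Agent.S19.A

local notation "Qb" => AlgebraicClosure ℚ
local notation "GQ" => (AlgebraicClosure ℚ ≃ₐ[ℚ] AlgebraicClosure ℚ)

variable {ℓ : ℕ} [Fact ℓ.Prime]

theorem int_isAlgebraic : Algebra.IsAlgebraic ℚ Qb := AlgebraicClosure.isAlgebraic ℚ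

theorem int_normal : Normal ℚ Qb :=
  have h2 := int_isAlgebraic
  have _h1 : IsAlgClosure ℚ Qb := ⟨inferInstance, h2⟩
  IsAlgClosure.normal ℚ Qb

theorem int_isGalois : IsGalois ℚ Qb := by
  have h2 := int_isAlgebraic
  have := int_normal
  exact {}

theorem int_exists_rat (x : Qb) (h : ∀ σ : GQ, σ x = x) : ∃ q : ℚ, algebraMap ℚ Qb q = x :=
  have := int_isGalois
  (InfiniteGalois.mem_range_algebraMap_iff_fixed (k := ℚ) (K := Qb) x).mpr h

open Polynomial in
theorem isIntegral_of_conj_mem {A : ValuationSubring Qb} (hA : A.LiesOverPrime ℓ) (z : Qb)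
    (h : ∀ σ : GQ, σ z ∈ A) : IsIntegral (RR ℓ) z := by
  classical
  have hn := int_normal
  have hz : IsIntegral ℚ z := (int_isAlgebraic.isAlgebraic z).isIntegral
  set f := minpoly ℚ z with hf
  have hmon : f.Monic := minpoly.monic hz
  have hsplit : (f.map (algebraMap ℚ Qb)).Splits := IsAlgClosed.splits _
  have hprod : f.map (algebraMap ℚ Qb) =
      ((f.map (algebraMap ℚ Qb)).roots.map fun r => X - C r).prod := by
    have h1 := hsplit.eq_prod_roots
    rw [(hmon.map _).leadingCoeff, C_1, one_mul] at h1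
    exact h1
  have hroot : ∀ r ∈ (f.map (algebraMap ℚ Qb)).roots, r ∈ A := by
    intro r hr
    have h1 : IsConjRoot ℚ z r := by
      rw [isConjRoot_iff_mem_minpoly_aroots hz]
      exact hr
    obtain ⟨σ, hσ⟩ := (isConjRoot_iff_exists_algEquiv).mp h1
    have h2 : r = σ⁻¹ z := by rw [← hσ]; exact (σ.symm_apply_apply r).symm
    rw [h2]
    exact h σ⁻¹
  have hlift : f.map (algebraMap ℚ Qb) ∈ Polynomial.lifts A.subtype := by
    rw [hprod]
    apply Subsemiring.multiset_prod_mem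
    intro c hc
    obtain ⟨r, hr, rfl⟩ := Multiset.mem_map.mp hc
    rw [Polynomial.mem_lifts]
    refine ⟨X - C ⟨r, hroot r hr⟩, ?_⟩
    simp
  have hcoeff : ∀ i, f.coeff i ∈ RR ℓ := by
    intro i
    apply mem_R_of_mem_A hA
    obtain ⟨G, hG⟩ := (Polynomial.mem_lifts _).mp hlift
    have h1 := congrArg (fun P => P.coeff i) hG
    simp only [coeff_map] at h1
    rw [← h1]
    exact (G.coeff i).2
  have hlift2 : f ∈ Polynomial.lifts (RR ℓ).subtype := by
    rw [Polynomial.lifts_iff_coeff_lifts]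
    intro i
    exact ⟨⟨f.coeff i, hcoeff i⟩, rfl⟩
  obtain ⟨F, hF, -, hFmon⟩ := Polynomial.lifts_and_natDegree_eq_and_monic hlift2 hmon
  refine ⟨F, hFmon, ?_⟩
  have h1 : eval₂ (algebraMap (RR ℓ) Qb) z F = eval₂ (algebraMap ℚ Qb) z (F.map (RR ℓ).subtype) := by
    rw [eval₂_map]
    rfl
  rw [h1, hF]
  exact minpoly.aeval ℚ z

omit [Fact ℓ.Prime] in
theorem isIntegral_conj (σ : GQ) {z : Qb} (h : IsIntegral (RR ℓ) z) : IsIntegral (RR ℓ) (σ z) :=
  h.map (σ.toAlgHom.restrictScalars (RR ℓ))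

open Polynomial in
theorem mem_A_of_isIntegral {A : ValuationSubring Qb} (hA : A.LiesOverPrime ℓ) {z : Qb}
    (h : IsIntegral (RR ℓ) z) : z ∈ A := by
  obtain ⟨F, hmon, hF⟩ := h
  let φ : RR ℓ →+* A := (algebraMap (RR ℓ) Qb).codRestrict A.toSubring (R_le_A hA)
  have h1 : IsIntegral A z := by
    refine ⟨F.map φ, hmon.map φ, ?_⟩
    rw [eval₂_map]
    exact hF
  obtain ⟨y, hy⟩ := (IsIntegrallyClosed.isIntegral_iff (R := A) (K := Qb)).mp h1
  rw [← hy]
  exact y.2

/-- an integral element fixed by Galois lies in `R` -/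
theorem exists_R_of_fixed {z : Qb} (h : IsIntegral (RR ℓ) z) (hfix : ∀ σ : GQ, σ z = z) :
    ∃ r : RR ℓ, z = algebraMap (RR ℓ) Qb r := by
  obtain ⟨q, rfl⟩ := int_exists_rat z hfix
  exact ⟨⟨q, mem_R_of_isIntegral q h⟩, rfl⟩

end Fermat.Agent.S19.A
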