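import Mathlib

/-!
# S19, layer A : the abstract local criterion (helper16)

`A` a local ring, `X` a finite set, `B ⊆ (X → A)` a subring containing the constants.  If for every point `x` there is
`N ∈ B` with `N x` a unit and `N * G ∈ B`, then `G ∈ B`.

Proof: `I = {b ∈ B | b G ∈ B}` is an ideal of `B`.  If `I ≠ ⊤` take a maximal ideal `n ⊇ I`; `X → A` is integral over `B`
(`f` is a root of `∏ x, (T - f x)`), so there is a maximal ideal `n'` of `X → A` over `n`; some idempotent `e_x ∉ n'`;
the `N` of the point `x` is in `n'`, and `e_x = (N x)⁻¹ N e_x ∈ n'`: contradiction.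
-/

set_option autoImplicit false

namespace Fermat.Agent.S19

theorem lcabs_isIntegral {A X : Type*} [CommRing A] [Finite X] (B : Subring (X → A))
    (hconst : ∀ a : A, (fun _ => a) ∈ B) (f : X → A) : IsIntegral B f := by
  classical
  cases nonempty_fintype X
  refine ⟨∏ x : X, (Polynomial.X - Polynomial.C (⟨fun _ => f x, hconst (f x)⟩ : B)),
    Polynomial.monic_prod_of_monic _ _ (fun x _ => Polynomial.monic_X_sub_C _), ?_⟩
  rw [Polynomial.eval₂_finsetProd]
  funext y
  rw [Finset.prod_apply]
  apply Finset.prod_eq_zero (Finset.mem_univ y)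
  simp only [Polynomial.eval₂_sub, Polynomial.eval₂_X, Polynomial.eval₂_C]
  show f y - f y = 0
  exact sub_self _

theorem lc_abs {A X : Type*} [CommRing A] [IsLocalRing A] [Finite X] (B : Subring (X → A))
    (hconst : ∀ a : A, (fun _ => a) ∈ B) (G : X → A)
    (h : ∀ x, ∃ N ∈ B, IsUnit (N x) ∧ N * G ∈ B) : G ∈ B := by
  classical
  cases nonempty_fintype X
  let I : Ideal B :=
    { carrier := {b | (b : X → A) * G ∈ B}
      add_mem' := fun {a b} (ha : (a : X → A) * G ∈ B) (hb : (b : X → A) * G ∈ B) => by
        show ((a + b : B) : X → A) * G ∈ B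
        rw [Subring.coe_add, add_mul]
        exact B.add_mem ha hb
      zero_mem' := by
        show ((0 : B) : X → A) * G ∈ B
        rw [Subring.coe_zero, zero_mul]
        exact B.zero_mem
      smul_mem' := fun c b (hb : (b : X → A) * G ∈ B) => by
        show ((c * b : B) : X → A) * G ∈ B
        rw [Subring.coe_mul, mul_assoc]
        exact B.mul_mem c.2 hb }
  by_contra hG
  have hI : I ≠ ⊤ := by
    intro hI
    have h1 : (1 : B) ∈ I := hI ▸ Submodule.mem_top
    have h2 : ((1 : B) : X → A) * G ∈ B := h1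
    rw [Subring.coe_one, one_mul] at h2
    exact hG h2
  obtain ⟨n, hn, hIn⟩ := Ideal.exists_le_maximal I hI
  have : Algebra.IsIntegral B (X → A) := ⟨lcabs_isIntegral B hconst⟩
  have hker : RingHom.ker (algebraMap B (X → A)) ≤ n := by
    intro b hb
    have hb1 : (b : X → A) = 0 := hb
    have hb0 : b = 0 := Subtype.ext hb1
    rw [hb0]
    exact n.zero_mem
  obtain ⟨n', hn', hcomap⟩ := Ideal.exists_ideal_over_maximal_of_isIntegral n hker
  -- some idempotent is outside `n'`
  have hex : ∃ x : X, (Pi.single x (1 : A) : X → A) ∉ n' := by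
    by_contra hall
    push Not at hall
    apply hn'.ne_top
    rw [Ideal.eq_top_iff_one]
    have : (1 : X → A) = ∑ x : X, (Pi.single x (1 : A) : X → A) := by
      funext y
      rw [Finset.sum_apply]
      simp [Pi.single_apply]
    rw [this]
    exact n'.sum_mem (fun x _ => hall x)
  obtain ⟨x, hx⟩ := hex
  obtain ⟨N, hNB, hNu, hNG⟩ := h x
  have hNn : (⟨N, hNB⟩ : B) ∈ n := hIn hNG
  have hNn' : N ∈ n' := by
    rw [← hcomap] at hNn
    exact hNn
  obtain ⟨u, hu⟩ := hNu
  apply hx
  have : (Pi.single x (1 : A) : X → A) = (Pi.single x ((u⁻¹ : Aˣ) : A) : X → A) * N := by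
    funext y
    by_cases hy : y = x
    · subst hy
      simp [← hu]
    · simp [hy]
  rw [this]
  exact n'.mul_mem_left _ hNn'

end Fermat.Agent.S19
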