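import Fermat.Agent.S19.A.Char
import Fermat.Agent.S19.A.Descent
import Fermat.Agent.S19.A.Hopf

/-!
# S19 / A / Order : assembly of `flat_of_chars`      (helper6)
-/

set_option autoImplicit false

open scoped TensorProduct

noncomputable section

namespace Fermat.Agent.S19.A

open Fermat.Agent.S19

variable {ℓ : ℕ} [Fact ℓ.Prime]

/-- pointwise integral functions on a finite set are integral -/
theorem isIntegral_pi {R Ω M : Type} [CommRing R] [CommRing Ω] [Algebra R Ω] [Finite M]
    (f : M → Ω) (h : ∀ a, IsIntegral R (f a)) : IsIntegral R f := by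
  classical
  have := Fintype.ofFinite M
  choose P hP hP' using h
  refine ⟨∏ a, P a, Polynomial.monic_prod_of_monic _ _ (fun a _ => hP a), ?_⟩
  funext a
  have h1 : (Polynomial.eval₂ (algebraMap R (M → Ω)) f (∏ a, P a)) a =
      Polynomial.eval₂ (algebraMap R Ω) (f a) (∏ a, P a) := by
    exact Polynomial.hom_eval₂ (∏ a, P a) (algebraMap R (M → Ω)) (Pi.evalRingHom (fun _ => Ω) a) f
  rw [h1, Polynomial.eval₂_finsetProd]
  exact Finset.prod_eq_zero (Finset.mem_univ a) (hP' a)

/-- a subalgebra of `M → Ω` over the field `Ω` which separates the points is everything -/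
theorem span_eq_top_of_separates {Ω M : Type} [Field Ω] [Finite M] (V : Subalgebra Ω (M → Ω))
    (h : ∀ a a' : M, a ≠ a' → ∃ f ∈ V, f a ≠ f a') : V = ⊤ := by
  classical
  have := Fintype.ofFinite M
  have hδ : ∀ a : M, (Pi.single a (1 : Ω) : M → Ω) ∈ V := by
    intro a
    choose! f hfV hf using h a
    have h1 : (Pi.single a (1 : Ω) : M → Ω) = ∏ a' ∈ Finset.univ.erase a,
        ((f a' a - f a' a')⁻¹ • (f a' - algebraMap Ω (M → Ω) (f a' a'))) := by
      funext x
      rw [Finset.prod_apply]
      by_cases hx : x = a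
      · subst hx
        rw [Pi.single_eq_same]
        symm
        apply Finset.prod_eq_one
        intro a' ha'
        have hne : x ≠ a' := (Finset.ne_of_mem_erase ha').symm
        have h2 : f a' x - f a' a' ≠ 0 := sub_ne_zero.mpr (hf a' hne)
        simp only [Pi.smul_apply, Pi.sub_apply, Pi.algebraMap_apply, Algebra.algebraMap_self,
          RingHom.id_apply, smul_eq_mul]
        exact inv_mul_cancel₀ h2
      · rw [Pi.single_eq_of_ne hx]
        symm
        apply Finset.prod_eq_zero (Finset.mem_erase.mpr ⟨hx, Finset.mem_univ x⟩)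
        simp
    rw [h1]
    refine V.prod_mem fun a' ha' => V.smul_mem (V.sub_mem (hfV a' ?_) (V.algebraMap_mem _)) _
    exact (Finset.ne_of_mem_erase ha').symm
  rw [eq_top_iff]
  intro F _
  have h2 : F = ∑ a, F a • (Pi.single a (1 : Ω) : M → Ω) := by
    funext x
    simp [Finset.sum_apply, Pi.single_apply]
  rw [h2]
  exact V.sum_mem fun a _ => V.smul_mem (hδ a) _

end Fermat.Agent.S19.A
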