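import Fermat.Agent.S19.Defs
import Fermat.Agent.S19.A.Order

/-!
# S19, layer A : the abstract theorem FLAT (Hopf order from integral characters)
Owner: see the claims table (`S19/A-owner`).  Blueprint: briefing `S19-BLUEPRINT-A`.
-/

set_option autoImplicit false

open scoped TensorProduct

noncomputable section

namespace Fermat.Agent.S19

/-- **FLAT**. `M` a finite `G_ℚ`-module with open stabilisers; `A` a valuation ring of `Qb` over `ℓ`; every `x ≠ 0` is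
separated from `0` by a character `χ : M → Qbˣ` all of whose twisted orbit functions `ρ ↦ (ρ ρ₀ · χ)(a)` are `GCfun A`. -/
theorem flat_of_chars (ℓ : ℕ) [Fact ℓ.Prime] (M : Type) [AddCommGroup M] [Finite M]
    [DistribMulAction GQ M]
    (hopen : ∀ x : M, ∃ E : IntermediateField ℚ Qb, FiniteDimensional ℚ E ∧
      ∀ σ : GQ, (∀ a ∈ E, σ a = a) → σ • x = x)
    (A : ValuationSubring Qb) (hA : A.LiesOverPrime ℓ)
    (hχ : ∀ x : M, x ≠ 0 → ∃ χ : M → Qb, (∀ a b, χ (a + b) = χ a * χ b) ∧ (∀ a, χ a ≠ 0) ∧ χ x ≠ 1 ∧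
      ∀ (ρ₀ : GQ) (a : M), GCfun A (fun ρ => (ρ * ρ₀) (χ ((ρ * ρ₀)⁻¹ • a)))) :
    ∃ (H : Type) (_ : CommRing H) (_ : HopfAlgebra (GaloisRep.ratLocalizedAt ℓ) H),
      Module.Finite (GaloisRep.ratLocalizedAt ℓ) H ∧ Module.Flat (GaloisRep.ratLocalizedAt ℓ) H ∧
      Coalgebra.IsCocomm (GaloisRep.ratLocalizedAt ℓ) H ∧
      ∃ e : WithConv (H →ₐ[GaloisRep.ratLocalizedAt ℓ] AlgebraicClosure ℚ) ≃ M,
        (∀ f g, e (f * g) = e f + e g) ∧
        ∀ (σ : GQ) (f g : WithConv (H →ₐ[GaloisRep.ratLocalizedAt ℓ] AlgebraicClosure ℚ)),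
          (∀ h : H, g h = σ (f h)) → e g = σ • e f := by
  classical
  have hdata : ∀ x : {x : M // x ≠ 0}, ∃ χ : M → Qb, (∀ a b, χ (a + b) = χ a * χ b) ∧
      (∀ a, χ a ≠ 0) ∧ χ x.1 ≠ 1 ∧
      ∃ (J : Type) (_ : Fintype J) (g : J → M → Qb) (β : J → Qb) (c : J → J → J → Fermat.Agent.S19.A.RR ℓ),
      (∀ j (σ : GQ) a, σ (g j a) = g j (σ • a)) ∧ (∀ j a, IsIntegral (Fermat.Agent.S19.A.RR ℓ) (g j a)) ∧
      (∀ a, χ a = ∑ j, β j * g j a) ∧
      ∀ j a a', g j (a + a') =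
        ∑ k, ∑ l, algebraMap (Fermat.Agent.S19.A.RR ℓ) Qb (c j k l) * (g k a * g l a') := by
    intro x
    obtain ⟨χ, h1, h2, h3, h4⟩ := hχ x.1 x.2
    exact ⟨χ, h1, h2, h3, Fermat.Agent.S19.A.exists_char_data M hopen A hA χ h1 h4⟩
  choose χ hmul hne hx J hJ g β c heq hint hχg hadd using hdata
  let S : Set (M → Qb) := ⋃ x, Set.range (g x)
  have hSfin : S.Finite := Set.finite_iUnion fun x => Set.finite_range _
  have hSmem : ∀ x j, g x j ∈ S := fun x j => Set.mem_iUnion.mpr ⟨x, ⟨j, rfl⟩⟩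
  have hSint : ∀ f ∈ S, IsIntegral (Fermat.Agent.S19.A.RR ℓ) f := by
    intro f hf
    obtain ⟨x, j, rfl⟩ := Set.mem_iUnion.mp hf
    exact Fermat.Agent.S19.A.isIntegral_pi _ (hint x j)
  have hSeq : ∀ f ∈ S, ∀ (σ : GQ) (a : M), σ (f a) = f (σ • a) := by
    intro f hf
    obtain ⟨x, j, rfl⟩ := Set.mem_iUnion.mp hf
    exact heq x j
  set H : Subalgebra (Fermat.Agent.S19.A.RR ℓ) (M → Qb) := Algebra.adjoin (Fermat.Agent.S19.A.RR ℓ) S with hH
  have hfin : Module.Finite (Fermat.Agent.S19.A.RR ℓ) H :=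
    Module.Finite.iff_fg.mpr (fg_adjoin_of_finite hSfin hSint)
  have hHeq : ∀ h ∈ H, ∀ (σ : GQ) (a : M), σ (h a) = h (σ • a) := by
    intro h hh σ
    induction hh using Algebra.adjoin_induction with
    | mem f hf => exact hSeq f hf σ
    | algebraMap r =>
      intro a
      show σ (algebraMap ℚ Qb (r : ℚ)) = algebraMap ℚ Qb (r : ℚ)
      exact σ.commutes _
    | add f f' _ _ h1 h2 => intro a; simp only [Pi.add_apply, map_add, h1 a, h2 a]
    | mul f f' _ _ h1 h2 => intro a; simp only [Pi.mul_apply, map_mul, h1 a, h2 a]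
  have hsp : Submodule.span Qb (H : Set (M → Qb)) = ⊤ := by
    have h1 : Algebra.adjoin Qb (H : Set (M → Qb)) = ⊤ := by
      apply Fermat.Agent.S19.A.span_eq_top_of_separates
      intro a a' haa
      have hx0 : a - a' ≠ 0 := sub_ne_zero.mpr haa
      refine ⟨χ ⟨a - a', hx0⟩, ?_, ?_⟩
      · have h2 : χ ⟨a - a', hx0⟩ = ∑ j, β ⟨a - a', hx0⟩ j • g ⟨a - a', hx0⟩ j := by
          funext y
          rw [hχg, Finset.sum_apply]
          rfl
        rw [h2]
        exact Subalgebra.sum_mem _ fun j _ => Subalgebra.smul_mem _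
          (Algebra.subset_adjoin (Algebra.subset_adjoin (hSmem _ j))) _
      · intro h3
        have h4 : χ ⟨a - a', hx0⟩ a = χ ⟨a - a', hx0⟩ a' * χ ⟨a - a', hx0⟩ (a - a') := by
          rw [← hmul]; congr 1; abel
        rw [h3] at h4
        have h5 := hne ⟨a - a', hx0⟩ a'
        exact hx ⟨a - a', hx0⟩ (mul_left_cancel₀ h5 (by rw [← h4, mul_one]))
    have h2 := congrArg Subalgebra.toSubmodule h1
    rw [Algebra.adjoin_eq_span, Algebra.top_toSubmodule] at h2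
    have h3 : (Submonoid.closure (H : Set (M → Qb)) : Set (M → Qb)) = (H : Set (M → Qb)) :=
      congrArg SetLike.coe (Submonoid.closure_eq H.toSubmonoid)
    rw [h3] at h2
    exact h2
  obtain ⟨ι, hι, b, hli, hbsp⟩ := Fermat.Agent.S19.A.exists_basis H hfin hHeq hsp
  obtain ⟨H', i1, i2, h1, h2, h3, E, hE1, hE2⟩ := Hopf.hopf_of_adjoin (S := S) b
    (Fermat.Agent.S19.A.algebraMap_RR_injective ℓ) hli hbsp.ge
    (by
      intro f hf
      obtain ⟨x, j, rfl⟩ := Set.mem_iUnion.mp hf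
      refine ⟨∑ k, ∑ l, c x j k l •
        ((⟨g x k, Algebra.subset_adjoin (hSmem x k)⟩ : Algebra.adjoin (Fermat.Agent.S19.A.RR ℓ) S) ⊗ₜ[Fermat.Agent.S19.A.RR ℓ]
          (⟨g x l, Algebra.subset_adjoin (hSmem x l)⟩ : Algebra.adjoin (Fermat.Agent.S19.A.RR ℓ) S)), ?_⟩
      intro a a'
      rw [hadd, map_sum]
      refine Finset.sum_congr rfl fun k _ => ?_
      rw [map_sum]
      refine Finset.sum_congr rfl fun l _ => ?_
      rw [map_smul, Hopf.bx_tmul, Algebra.smul_def]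
      rfl)
    (by
      intro f hf
      obtain ⟨x, j, rfl⟩ := Set.mem_iUnion.mp hf
      exact Fermat.Agent.S19.A.exists_R_of_fixed (hint x j 0) (fun σ => by rw [heq, smul_zero]))
  refine ⟨H', i1, i2, h1, h2, h3, E, hE1, fun σ f g' hfg => ?_⟩
  exact hE2 (σ : Qb →+* Qb) (fun a => σ • a) (fun r => σ.commutes _)
    (fun f hf a => hSeq f hf σ a) f g' hfg

end Fermat.Agent.S19
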