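import Fermat.Agent.S19.A.SumU

/-!
# S19 / A / NF1 : `GQ ⧸ K'.fixingSubgroup` and the trace      [key S19/A-NF1]    (Mathlib only)
`K'` a finite Galois extension of `ℚ` inside `Qb`, `U = K'.fixingSubgroup`.  `AlgEquiv.restrictNormalHom K' : GQ →* (K' ≃ₐ[ℚ] K')` is surjective
(`AlgEquiv.restrictNormalHom_surjective`) with kernel `U` (`IntermediateField.restrictNormalHom_ker`).
-/

set_option autoImplicit false

noncomputable section

namespace Fermat.Agent.S19.A

local notation "Qb" => AlgebraicClosure ℚ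
local notation "GQ" => (AlgebraicClosure ℚ ≃ₐ[ℚ] AlgebraicClosure ℚ)

variable (K' : IntermediateField ℚ Qb) [FiniteDimensional ℚ K'] [Normal ℚ K']

theorem nf_ker : (AlgEquiv.restrictNormalHom K' : GQ →* (K' ≃ₐ[ℚ] K')).ker = K'.fixingSubgroup := by
  ext ρ
  rw [MonoidHom.mem_ker, IntermediateField.mem_fixingSubgroup_iff]
  constructor
  · intro h z hz
    have h1 := AlgEquiv.restrictNormal_commutes ρ K' ⟨z, hz⟩
    have h2 : AlgEquiv.restrictNormal ρ K' = 1 := h
    rw [h2] at h1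
    exact h1.symm
  · intro h
    ext z
    have h1 := AlgEquiv.restrictNormal_commutes ρ K' z
    have h2 : ((AlgEquiv.restrictNormalHom K' ρ z : K') : Qb) = ρ (z : Qb) := h1
    rw [h2]
    exact h z z.2

theorem nf_normal : K'.fixingSubgroup.Normal := by
  rw [← nf_ker K']
  infer_instance

theorem nf_mem_iff (ρ ρ' : GQ) :
    ρ⁻¹ * ρ' ∈ K'.fixingSubgroup ↔
      AlgEquiv.restrictNormalHom K' ρ = AlgEquiv.restrictNormalHom K' ρ' := by
  rw [← nf_ker K', MonoidHom.mem_ker, map_mul, map_inv, inv_mul_eq_one]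

/-- the map `GQ ⧸ U → Gal(K'/ℚ)` -/
def nfMap (x : GQ ⧸ K'.fixingSubgroup) : (K' ≃ₐ[ℚ] K') :=
  AlgEquiv.restrictNormalHom K' x.out

theorem nfMap_mk (ρ : GQ) :
    nfMap K' (QuotientGroup.mk ρ) = AlgEquiv.restrictNormalHom K' ρ := by
  unfold nfMap
  rw [← nf_mem_iff]
  exact QuotientGroup.eq.mp (QuotientGroup.out_eq' _)

theorem nfMap_bijective : Function.Bijective (nfMap K') := by
  constructor
  · intro x y hxy
    unfold nfMap at hxy
    rw [← nf_mem_iff] at hxy
    have := QuotientGroup.eq.mpr hxy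
    rwa [QuotientGroup.out_eq', QuotientGroup.out_eq'] at this
  · intro τ
    have halg : Algebra.IsAlgebraic ℚ Qb := AlgebraicClosure.isAlgebraic ℚ
    have hcl : IsAlgClosure ℚ Qb := ⟨inferInstance, halg⟩
    have hn : Normal ℚ Qb := IsAlgClosure.normal ℚ Qb
    obtain ⟨ρ, hρ⟩ := AlgEquiv.restrictNormalHom_surjective (F := ℚ) (K₁ := K') Qb τ
    exact ⟨QuotientGroup.mk ρ, by rw [nfMap_mk, hρ]⟩

theorem nf_finite : Finite (GQ ⧸ K'.fixingSubgroup) :=
  Finite.of_injective _ (nfMap_bijective K').1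

theorem nf_mem_of_fixed (z : Qb) (h : ∀ u ∈ K'.fixingSubgroup, u z = z) : z ∈ K' := by
  have halg : Algebra.IsAlgebraic ℚ Qb := AlgebraicClosure.isAlgebraic ℚ
  have hcl : IsAlgClosure ℚ Qb := ⟨inferInstance, halg⟩
  have hn : Normal ℚ Qb := IsAlgClosure.normal ℚ Qb
  have hG : IsGalois ℚ Qb := {}
  have h1 : IntermediateField.fixedField K'.fixingSubgroup = K' :=
    InfiniteGalois.fixedField_fixingSubgroup K'
  rw [← h1]
  intro u
  exact h u.1 u.2

theorem nf_restrict_apply (ρ : GQ) (z : K') :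
    ((AlgEquiv.restrictNormalHom K' ρ z : K') : Qb) = ρ (z : Qb) :=
  AlgEquiv.restrictNormal_commutes ρ K' z

/-- reindexing -/
theorem nf_sumU_eq_sum (F : (K' ≃ₐ[ℚ] K') → Qb) :
    sumU K'.fixingSubgroup (fun ρ : GQ => F (AlgEquiv.restrictNormalHom K' ρ)) = ∑ᶠ τ, F τ := by
  unfold sumU
  exact finsum_comp_equiv (Equiv.ofBijective _ (nfMap_bijective K')) (f := F)

theorem nf_sumU_trace (z : K') :
    sumU K'.fixingSubgroup (fun ρ : GQ => ρ (z : Qb)) =
      algebraMap ℚ Qb (Algebra.trace ℚ K' z) := by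
  have hG : IsGalois ℚ K' := {}
  have h1 := nf_sumU_eq_sum K' (fun τ => ((τ z : K') : Qb))
  simp only [nf_restrict_apply] at h1
  rw [h1, finsum_eq_sum_of_fintype]
  have h2 := trace_eq_sum_automorphisms (K := ℚ) (L := K') z
  have h3 : algebraMap ℚ Qb (Algebra.trace ℚ K' z)
      = algebraMap K' Qb (algebraMap ℚ K' (Algebra.trace ℚ K' z)) :=
    IsScalarTower.algebraMap_apply ℚ K' Qb _
  rw [h3, h2, map_sum]
  rfl

end Fermat.Agent.S19.A
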