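import Fermat.Agent.S19.A.RLoc

/-!
# S19 / A / NF2 : integral basis over `R = ℤ_(ℓ)` and its trace dual      [key S19/A-NF2]
`K` a finite Galois extension of `ℚ`.  `Z := integralClosure (RR ℓ) K` is free over the PID `R` (`R_pid`, `R_frac`; `IsIntegralClosure.module_free`, `IsIntegralClosure.isNoetherian`),
an `R`-basis of `Z` is a `ℚ`-basis of `K` (as for `NumberField.integralBasis`: `Module.Basis.localizationLocalization ℚ (nonZeroDivisors R) K`, `IsIntegralClosure.isLocalization`).
`bv := (Algebra.traceForm ℚ K).dualBasis (traceForm_nondegenerate ℚ K) b`.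
Last item: `E τ j = τ (b j)`, `E' τ j = τ (bv j)`: `(Eᵀ * E') i j = ∑_τ τ (b i * bv j) = Tr = δ_ij` (`Algebra.trace_eq_sum_automorphisms`), so `E' * Eᵀ = 1`
(`Matrix.mul_eq_one_comm_of_card_eq`; `Fintype.card (K ≃ₐ[ℚ] K) = finrank ℚ K = card J`, `IsGalois.card_aut_eq_finrank`).
-/

set_option autoImplicit false

noncomputable section

namespace Fermat.Agent.S19.A

open Classical in
/-- abstract form -/
theorem exists_dual_bases_aux (A K0 L : Type) [CommRing A] [IsDomain A] [IsPrincipalIdealRing A]
    [Field K0] [Algebra A K0] [IsFractionRing A K0] [Field L] [Algebra K0 L] [Algebra A L]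
    [IsScalarTower A K0 L] [FiniteDimensional K0 L] [IsGalois K0 L] :
    ∃ (J : Type) (_ : Fintype J) (b bv : J → L),
      (∀ j, IsIntegral A (b j)) ∧
      (∀ z : L, IsIntegral A z → ∃ c : J → A, z = ∑ j, c j • b j) ∧
      (∀ i j, Algebra.trace K0 L (b i * bv j) = if i = j then 1 else 0) ∧
      (∀ τ τ' : L ≃ₐ[K0] L, ∑ j, τ (b j) * τ' (bv j) = if τ = τ' then 1 else 0) := by
  have hinj : Function.Injective (algebraMap A L) := by
    rw [IsScalarTower.algebraMap_eq A K0 L]
    exact (algebraMap K0 L).injective.comp (IsFractionRing.injective A K0)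
  have : Module.IsTorsionFree A L := by
    have : FaithfulSMul A L := (faithfulSMul_iff_algebraMap_injective A L).mpr hinj
    infer_instance
  let C := integralClosure A L
  have : Module.Free A C := IsIntegralClosure.module_free A K0 L C
  have : IsNoetherian A C := IsIntegralClosure.isNoetherian A K0 L C
  have : IsLocalization (Algebra.algebraMapSubmonoid C (nonZeroDivisors A)) L :=
    IsIntegralClosure.isLocalization A K0 L C
  let b0 := Module.Free.chooseBasis A C
  let b := Module.Basis.localizationLocalization K0 (nonZeroDivisors A) L b0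
  have hb : ∀ j, b j = algebraMap C L (b0 j) := fun j =>
    Module.Basis.localizationLocalization_apply K0 (nonZeroDivisors A) L b0 j
  let bv := (Algebra.traceForm K0 L).dualBasis (traceForm_nondegenerate K0 L) b
  have htr : ∀ i j, Algebra.trace K0 L (b i * bv j) = if i = j then 1 else 0 := by
    intro i j
    have h := LinearMap.BilinForm.apply_dualBasis_left
      (traceForm_nondegenerate K0 L) b j i
    rw [Algebra.traceForm_apply] at h
    rw [mul_comm, h]
  refine ⟨_, inferInstance, b, bv, ?_, ?_, htr, ?_⟩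
  · intro j
    rw [hb]
    exact (b0 j).2
  · intro z hz
    refine ⟨fun j => b0.repr ⟨z, hz⟩ j, ?_⟩
    have h := b0.sum_repr ⟨z, hz⟩
    have h2 := congrArg (algebraMap C L) h
    rw [map_sum] at h2
    have h3 : algebraMap C L ⟨z, hz⟩ = z := rfl
    rw [h3] at h2
    refine h2.symm.trans ?_
    refine Finset.sum_congr rfl fun j _ => ?_
    rw [hb]
    rfl
  · -- matrices
    let E : Matrix (L ≃ₐ[K0] L) (Module.Free.ChooseBasisIndex A C) L := fun τ j => τ (b j)
    let E' : Matrix (L ≃ₐ[K0] L) (Module.Free.ChooseBasisIndex A C) L := fun τ j => τ (bv j)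
    have h1 : E.transpose * E' = 1 := by
      ext i j
      rw [Matrix.mul_apply]
      have h := trace_eq_sum_automorphisms (K := K0) (L := L) (b i * bv j)
      rw [htr] at h
      simp only [map_mul] at h
      rw [Matrix.one_apply]
      refine Eq.trans ?_ (h.symm.trans ?_)
      · rfl
      · split_ifs <;> simp
    have hcard : Fintype.card (Module.Free.ChooseBasisIndex A C) = Fintype.card (L ≃ₐ[K0] L) := by
      rw [← Nat.card_eq_fintype_card (α := (L ≃ₐ[K0] L)), IsGalois.card_aut_eq_finrank,
        Module.finrank_eq_card_basis b]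
    have h2 : E' * E.transpose = 1 := (Matrix.mul_eq_one_comm_of_card_eq _ _ _ hcard).mp h1
    intro τ τ'
    have h3 := congrFun (congrFun h2 τ') τ
    rw [Matrix.mul_apply] at h3
    rw [Matrix.one_apply] at h3
    refine Eq.trans (Finset.sum_congr rfl fun j _ => mul_comm _ _) (Eq.trans ?_ (h3.trans ?_))
    · rfl
    · simp only [eq_comm]

variable (ℓ : ℕ) [Fact ℓ.Prime]

open Classical in
theorem exists_dual_bases (K : Type) [Field K] [Algebra ℚ K] [FiniteDimensional ℚ K]
    [IsGalois ℚ K] :
    ∃ (J : Type) (_ : Fintype J) (b bv : J → K),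
      (∀ j, IsIntegral (RR ℓ) (b j)) ∧
      (∀ z : K, IsIntegral (RR ℓ) z → ∃ c : J → RR ℓ, z = ∑ j, ((c j : ℚ)) • b j) ∧
      (∀ i j, Algebra.trace ℚ K (b i * bv j) = if i = j then 1 else 0) ∧
      (∀ τ τ' : K ≃ₐ[ℚ] K, ∑ j, τ (b j) * τ' (bv j) = if τ = τ' then 1 else 0) := by
  have := R_pid ℓ
  have := R_frac ℓ
  exact exists_dual_bases_aux (RR ℓ) ℚ K

end Fermat.Agent.S19.A
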