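import Mathlib

/-!
# S19 / A / SumU : sums over `G ⧸ U`       [key S19/A-SUMU]     (Mathlib only)

Port of `Fermat/Agent/S41/Pair/Integ.lean` (same proofs) to an arbitrary group `G`, subgroup `U` of finite index and values in a commutative ring `Ω`.
`RInv U f` : `f (ρ u) = f ρ` for `u ∈ U`.
-/

set_option autoImplicit false

noncomputable section

namespace Fermat.Agent.S19.A

variable {G Ω : Type} [Group G] [CommRing Ω] {U : Subgroup G}

/-- right invariance -/
def RInv (U : Subgroup G) {X : Type} (f : G → X) : Prop := ∀ (ρ : G), ∀ u ∈ U, f (ρ * u) = f ρ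

/-- the sum over `G ⧸ U` -/
def sumU (U : Subgroup G) (f : G → Ω) : Ω := ∑ᶠ x : G ⧸ U, f x.out

theorem sumU_congr {f f' : G → Ω} (h : ∀ ρ, f ρ = f' ρ) : sumU U f = sumU U f' :=
  finsum_congr fun _ => h _

theorem sumU_eq_sum [Fintype (G ⧸ U)] (f : G → Ω) : sumU U f = ∑ x : G ⧸ U, f x.out :=
  finsum_eq_sum_of_fintype _

theorem RInv.out_mk {X : Type} {f : G → X} (hf : RInv U f) (g : G) :
    f (g : G ⧸ U).out = f g := by
  obtain ⟨h, hh⟩ := QuotientGroup.mk_out_eq_mul U g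
  rw [hh, hf g h h.2]

theorem sumU_add [Finite (G ⧸ U)] (f f' : G → Ω) :
    sumU U (fun ρ => f ρ + f' ρ) = sumU U f + sumU U f' := by
  cases nonempty_fintype (G ⧸ U)
  simp only [sumU_eq_sum, Finset.sum_add_distrib]

theorem sumU_mul_left [Finite (G ⧸ U)] (c : Ω) (f : G → Ω) :
    sumU U (fun ρ => c * f ρ) = c * sumU U f := by
  cases nonempty_fintype (G ⧸ U)
  simp only [sumU_eq_sum, Finset.mul_sum]

theorem sumU_mul_right [Finite (G ⧸ U)] (c : Ω) (f : G → Ω) :
    sumU U (fun ρ => f ρ * c) = sumU U f * c := by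
  cases nonempty_fintype (G ⧸ U)
  simp only [sumU_eq_sum, Finset.sum_mul]

theorem sumU_finset_sum [Finite (G ⧸ U)] {ι : Type} (s : Finset ι) (f : ι → G → Ω) :
    sumU U (fun ρ => ∑ i ∈ s, f i ρ) = ∑ i ∈ s, sumU U (f i) := by
  cases nonempty_fintype (G ⧸ U)
  simp only [sumU_eq_sum]
  exact Finset.sum_comm

theorem map_sumU [Finite (G ⧸ U)] {Ω' : Type} [CommRing Ω'] (φ : Ω →+* Ω') (f : G → Ω) :
    φ (sumU U f) = sumU U (fun ρ => φ (f ρ)) := by
  cases nonempty_fintype (G ⧸ U)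
  simp only [sumU_eq_sum, map_sum]

theorem sumU_translate [Finite (G ⧸ U)] (σ : G) {f : G → Ω} (hf : RInv U f) :
    sumU U (fun ρ => f (σ * ρ)) = sumU U f := by
  cases nonempty_fintype (G ⧸ U)
  simp only [sumU_eq_sum]
  refine Fintype.sum_equiv (MulAction.toPerm σ) _ _ fun x => ?_
  have h1 : (MulAction.toPerm σ) x = ((σ * x.out : G) : G ⧸ U) := by
    conv_lhs => rw [← QuotientGroup.out_eq' x]
    rfl
  rw [h1, hf.out_mk]

open Classical in
theorem sumU_indicator [Finite (G ⧸ U)] (τ : G) {f : G → Ω} (hf : RInv U f) :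
    sumU U (fun ρ => (if τ⁻¹ * ρ ∈ U then 1 else 0) * f ρ) = f τ := by
  cases nonempty_fintype (G ⧸ U)
  simp only [sumU_eq_sum]
  rw [Finset.sum_eq_single (τ : G ⧸ U)]
  · have h1 : τ⁻¹ * (τ : G ⧸ U).out ∈ U := by
      rw [← QuotientGroup.eq, QuotientGroup.out_eq']
    rw [if_pos h1, one_mul, hf.out_mk]
  · intro x _ hx
    have h1 : ¬ τ⁻¹ * x.out ∈ U := by
      rw [← QuotientGroup.eq, QuotientGroup.out_eq']
      exact fun h => hx h.symm
    rw [if_neg h1, zero_mul]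
  · intro h
    exact absurd (Finset.mem_univ _) h

/-- a finite set of representatives -/
theorem exists_reps_finset [Finite (G ⧸ U)] :
    ∃ T : Finset G, ∀ y : G, ∃ x ∈ T, ∃ u ∈ U, y = x * u := by
  classical
  cases nonempty_fintype (G ⧸ U)
  refine ⟨Finset.univ.image (fun x : G ⧸ U => x.out), fun y => ?_⟩
  refine ⟨(y : G ⧸ U).out, Finset.mem_image_of_mem _ (Finset.mem_univ _), ?_⟩
  obtain ⟨h, hh⟩ := QuotientGroup.mk_out_eq_mul U y
  exact ⟨h⁻¹, U.inv_mem h.2, by rw [hh]; simp⟩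

end Fermat.Agent.S19.A
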