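import Fermat.Agent.S19.A.Integral
import Fermat.Agent.S19.A.SumU
import Fermat.Agent.S19.A.NF1
import Fermat.Agent.S19.A.NF2

/-!
# S19 / A / NF : trace dual bases over `R`       [key S19/A-NF = assembly of NF1.lean + NF2.lean (apply `exists_dual_bases` to `K'`, push `b bv` to `Qb`)]

`exists_NFD`: given a finite dimensional `E ⊆ Qb`: `K' := normalClosure ℚ E Qb` (finite dimensional, Galois over `ℚ`), `U := K'.fixingSubgroup`.
[NF1] * `U` is normal (`K'` normal), `GQ ⧸ U` is finite: `GQ ⧸ U ≃ (K' ≃ₐ[ℚ] K')` (`AlgEquiv.restrictNormalHom K'` is surjective with kernel `U`; `IntermediateField.restrictNormalHom_ker`,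
        `AlgEquiv.restrictNormalHom_surjective`).   `u z = z` for all `u ∈ U` ↔ `z ∈ K'` (`IsGalois`/`InfiniteGalois.fixedField_fixingSubgroup`; only needed: fixed ⇒ `z ∈ K'`).
      * `sumU_eq_trace`: for `z : K'`: `sumU U (fun ρ => ρ z) = algebraMap ℚ Qb (Algebra.trace ℚ K' z)` (`Algebra.trace_eq_sum_automorphisms`, reindexing by the bijection above).
[NF2] * `Z' := integralClosure (RR ℓ) K'` is a free `R`-module of rank `[K':ℚ]` (`R_pid`, `R_frac`, `IsIntegralClosure.module_free`, `IsIntegralClosure.rank`/`integralClosure` API as for `NumberField.integralBasis`);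
        an `R`-basis `b` of `Z'` is a `ℚ`-basis of `K'` (`IsIntegralClosure`/`IsLocalization` : `Module.Basis.localizationLocalization`), `bv := (Algebra.traceForm ℚ K').dualBasis (traceForm_nondegenerate ℚ K') b`.
      * `tr`: `z ∈ Z'`, `z = ∑ c_k b_k`, `c_k ∈ R`: `Tr(bv_j z) = c_j`.
      * `dual`: the matrices `E = (ρ b_j)`, `E' = (ρ bv_j)` (`ρ ∈ K' ≃ₐ K'`) satisfy `Eᵀ E' = (Tr(b_i bv_j)) = 1`, so `E' Eᵀ = 1` (`Matrix.mul_eq_one_comm_of_card_eq`, `card (K' ≃ₐ K') = finrank`).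
-/

set_option autoImplicit false

noncomputable section

namespace Fermat.Agent.S19.A

local notation "Qb" => AlgebraicClosure ℚ
local notation "GQ" => (AlgebraicClosure ℚ ≃ₐ[ℚ] AlgebraicClosure ℚ)

open Classical in
/-- number field data -/
structure NFD (ℓ : ℕ) (U : Subgroup GQ) {J : Type} [Fintype J] (b bv : J → Qb) : Prop where
  normal : U.Normal
  fin : Finite (GQ ⧸ U)
  fix_b : ∀ u ∈ U, ∀ j, u (b j) = b j
  fix_bv : ∀ u ∈ U, ∀ j, u (bv j) = bv j
  int_b : ∀ j, IsIntegral (RR ℓ) (b j)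
  dual : ∀ ρ ρ' : GQ, ∑ j, ρ (b j) * ρ' (bv j) = if ρ⁻¹ * ρ' ∈ U then 1 else 0
  tr : ∀ j, ∀ z : Qb, IsIntegral (RR ℓ) z → (∀ u ∈ U, u z = z) →
    ∃ r : RR ℓ, sumU U (fun ρ : GQ => ρ (bv j * z)) = algebraMap (RR ℓ) Qb r

/-- a finite normal extension containing `E` -/
theorem exists_normal_ge (E : IntermediateField ℚ Qb) [FiniteDimensional ℚ E] :
    ∃ K' : IntermediateField ℚ Qb, FiniteDimensional ℚ K' ∧ Normal ℚ K' ∧ E ≤ K' := by
  have halg : Algebra.IsAlgebraic ℚ Qb := AlgebraicClosure.isAlgebraic ℚ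
  have hcl : IsAlgClosure ℚ Qb := ⟨inferInstance, halg⟩
  have hn : Normal ℚ Qb := IsAlgClosure.normal ℚ Qb
  have c1 : ∀ (K' : IntermediateField ℚ Qb) (a : Algebra ℚ K'),
      @Normal ℚ K' _ _ a → Normal ℚ K' := by
    intro K' a h
    have : a = DivisionRing.toRatAlgebra := Subsingleton.elim _ _
    subst this
    exact h
  have c2 : ∀ (K' : IntermediateField ℚ Qb) (a : Algebra ℚ K'),
      @FiniteDimensional ℚ K' _ _ a.toModule → FiniteDimensional ℚ K' := by
    intro K' a h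
    have : a = DivisionRing.toRatAlgebra := Subsingleton.elim _ _
    subst this
    exact h
  have c3 : @FiniteDimensional ℚ E _ _ (E.algebra' : Algebra ℚ E).toModule := by
    have : (E.algebra' : Algebra ℚ E) = DivisionRing.toRatAlgebra := Subsingleton.elim _ _
    rw [this]
    infer_instance
  let a0 : Algebra ℚ E := E.algebra'
  refine ⟨IntermediateField.normalClosure ℚ E Qb, c2 _ _ (normalClosure.is_finiteDimensional ℚ E Qb),
    c1 _ _ (normalClosure.normal ℚ E Qb), E.le_normalClosure⟩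

variable (ℓ : ℕ) [Fact ℓ.Prime]

theorem exists_NFD (E : IntermediateField ℚ Qb) [FiniteDimensional ℚ E] :
    ∃ (U : Subgroup GQ) (J : Type) (_ : Fintype J) (b bv : J → Qb),
      NFD ℓ U b bv ∧ U ≤ E.fixingSubgroup := by
  classical
  obtain ⟨K', hfd, hn, hle⟩ := exists_normal_ge E
  have hG : IsGalois ℚ K' := {}
  obtain ⟨J, hJ, b, bv, hint, hspan, htr, hdual⟩ := exists_dual_bases ℓ K'
  refine ⟨K'.fixingSubgroup, J, hJ, fun j => (b j : Qb), fun j => (bv j : Qb),
    ⟨nf_normal K', nf_finite K', ?_, ?_, ?_, ?_, ?_⟩, ?_⟩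
  · intro u hu j
    exact (IntermediateField.mem_fixingSubgroup_iff K' u).1 hu _ (b j).2
  · intro u hu j
    exact (IntermediateField.mem_fixingSubgroup_iff K' u).1 hu _ (bv j).2
  · intro j
    obtain ⟨P, hP, hP0⟩ := hint j
    refine ⟨P, hP, ?_⟩
    have h2 := congrArg (algebraMap K' Qb) hP0
    rw [Polynomial.hom_eval₂, map_zero] at h2
    exact h2
  · intro ρ ρ'
    have h := hdual (AlgEquiv.restrictNormalHom K' ρ) (AlgEquiv.restrictNormalHom K' ρ')
    have h2 := congrArg (algebraMap K' Qb) h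
    rw [map_sum] at h2
    simp only [map_mul] at h2
    have h4 : ∀ (σ : GQ) (x : K'), algebraMap K' Qb (AlgEquiv.restrictNormalHom K' σ x) = σ (x : Qb) :=
      fun σ x => nf_restrict_apply K' σ x
    simp only [h4] at h2
    rw [h2]
    by_cases hc : ρ⁻¹ * ρ' ∈ K'.fixingSubgroup
    · rw [if_pos hc, if_pos ((nf_mem_iff K' ρ ρ').1 hc), map_one]
    · rw [if_neg hc, if_neg (fun h' => hc ((nf_mem_iff K' ρ ρ').2 h')), map_zero]
  · intro j z hz hfix
    have hzK := nf_mem_of_fixed K' z hfix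
    have hz' : IsIntegral (RR ℓ) (⟨z, hzK⟩ : K') := by
      obtain ⟨P, hP, hP0⟩ := hz
      refine ⟨P, hP, ?_⟩
      apply (algebraMap K' Qb).injective
      rw [map_zero, Polynomial.hom_eval₂]
      exact hP0
    obtain ⟨c, hc⟩ := hspan _ hz'
    refine ⟨c j, ?_⟩
    have h1 := nf_sumU_trace K' (bv j * ⟨z, hzK⟩)
    have h2 : Algebra.trace ℚ K' (bv j * ⟨z, hzK⟩) = (c j : ℚ) := by
      rw [hc, Finset.mul_sum, map_sum]
      have : ∀ k, Algebra.trace ℚ K' (bv j * ((c k : ℚ) • b k))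
          = (c k : ℚ) * (if k = j then 1 else 0) := by
        intro k
        rw [mul_smul_comm, map_smul, mul_comm, htr, smul_eq_mul]
      simp only [this]
      simp
    rw [h2] at h1
    exact h1
  · intro u hu
    rw [IntermediateField.mem_fixingSubgroup_iff] at hu ⊢
    intro x hx
    exact hu x (hle hx)

end Fermat.Agent.S19.A
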