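import Mathlib
import Fermat.Prelude.Def_GaloisRep_Flat
import Fermat.Agent.S28.RLoc

/-!
# S19 / A / RLoc : the ring `R = ℤ_(ℓ) = GaloisRep.ratLocalizedAt ℓ`      [key S19/A-RLOC]

`RR ℓ` is the subring `{q : ℚ | q.den.Coprime ℓ}`.
* `R_pid`: every nonzero ideal is generated by `ℓ ^ k` (`k` minimal `padicValRat` of its elements): `q ∈ RR ℓ ↔ 0 ≤ padicValRat ℓ q ∨ q = 0`;
  or: `RR ℓ` is a valuation ring (`q ∈ R ∨ q⁻¹ ∈ R`) and noetherian; or `IsLocalization.AtPrime`-style: `IsLocalization (Ideal.primeCompl (span {ℓ})) (RR ℓ)` + PID of localisations.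
* `R_frac`: `q = num / den`, both in `RR ℓ` (`IsFractionRing` of a subring containing `ℤ`).
* `R_le_A`: `r = num/den`, `den` prime to `ℓ`; `ℤ ⊆ A`; if `den` were a nonunit of `A` then `1 = u den + v ℓ` would be a nonunit.
* `mem_R_of_mem_A`: `q = a/b` in lowest terms, `ℓ ∣ b`, so `ℓ ∤ a`, `a` is a unit of `A` (as before), `b ∈ ℓ A` is a nonunit, `q ∈ A` gives `a = q b` nonunit. Contradiction.
-/

set_option autoImplicit false

noncomputable section

namespace Fermat.Agent.S19.A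

/-- `ℤ_(ℓ)` -/
abbrev RR (ℓ : ℕ) : Subring ℚ := GaloisRep.ratLocalizedAt ℓ

local notation "Qb" => AlgebraicClosure ℚ

variable (ℓ : ℕ) [Fact ℓ.Prime]

theorem algebraMap_RR (r : RR ℓ) : algebraMap (RR ℓ) Qb r = algebraMap ℚ Qb (r : ℚ) := rfl

theorem algebraMap_RR_injective : Function.Injective (algebraMap (RR ℓ) Qb) :=
  (algebraMap ℚ Qb).injective.comp Subtype.val_injective

theorem R_pid : IsPrincipalIdealRing (RR ℓ) :=
  inferInstanceAs (IsPrincipalIdealRing (GaloisRep.ratLocalizedAt ℓ))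

theorem R_frac : IsFractionRing (RR ℓ) ℚ := Fermat.Agent.S28.RLoc.isFractionRing ℓ

variable {ℓ}

omit [Fact ℓ.Prime] in
theorem rloc_ell_mem {A : ValuationSubring Qb} (hA : A.LiesOverPrime ℓ) :
    ((ℓ : ℤ) : A) ∈ IsLocalRing.maximalIdeal A := by
  obtain ⟨h, hm⟩ := ValuationSubring.mem_nonunits_iff_exists_mem_maximalIdeal.1 hA
  have : ((ℓ : ℤ) : A) = ⟨(ℓ : Qb), h⟩ := Subtype.ext (by simp)
  rw [this]
  exact hm

omit [Fact ℓ.Prime] in
theorem rloc_isUnit {A : ValuationSubring Qb} (hA : A.LiesOverPrime ℓ) (d : ℤ)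
    (hd : IsCoprime d (ℓ : ℤ)) : IsUnit (d : A) := by
  by_contra hu
  have h1 : (d : A) ∈ IsLocalRing.maximalIdeal A := (IsLocalRing.mem_maximalIdeal _).2 hu
  obtain ⟨u, v, huv⟩ := hd
  have h2 : (1 : A) ∈ IsLocalRing.maximalIdeal A := by
    have : (1 : A) = (u : A) * (d : A) + (v : A) * ((ℓ : ℤ) : A) := by
      rw [← Int.cast_mul, ← Int.cast_mul, ← Int.cast_add, huv, Int.cast_one]
    rw [this]
    exact Ideal.add_mem _ (Ideal.mul_mem_left _ _ h1) (Ideal.mul_mem_left _ _ (rloc_ell_mem hA))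
  exact (Ideal.ne_top_iff_one _).1 (IsLocalRing.maximalIdeal.isMaximal A).ne_top h2

theorem R_le_A {A : ValuationSubring Qb} (hA : A.LiesOverPrime ℓ) (r : RR ℓ) :
    algebraMap (RR ℓ) Qb r ∈ A := by
  obtain ⟨q, hq⟩ := r
  have hq' : q.den.Coprime ℓ := hq
  have hc : IsCoprime (q.den : ℤ) (ℓ : ℤ) := Nat.isCoprime_iff_coprime.2 hq'
  obtain ⟨u, hu⟩ := rloc_isUnit hA _ hc
  have h1 : algebraMap ℚ Qb q = ((q.num : A) * (↑u⁻¹ : A) : A) := by
    have h2 : ((↑u⁻¹ : A) : Qb) = ((q.den : ℤ) : Qb)⁻¹ := by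
      have h3 : ((u : A) : Qb) * ((↑u⁻¹ : A) : Qb) = 1 := by
        rw [← A.coe_mul, Units.mul_inv]; rfl
      rw [hu] at h3
      have h4 : (((q.den : ℤ) : A) : Qb) = ((q.den : ℤ) : Qb) := by simp
      rw [h4] at h3
      exact eq_inv_of_mul_eq_one_right h3
    rw [A.coe_mul, h2]
    conv_lhs => rw [← Rat.num_div_den q]
    simp [div_eq_mul_inv]
  show algebraMap ℚ Qb q ∈ A
  rw [h1]
  exact Subtype.property _

theorem mem_R_of_mem_A {A : ValuationSubring Qb} (hA : A.LiesOverPrime ℓ) (q : ℚ)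
    (h : algebraMap ℚ Qb q ∈ A) : q ∈ RR ℓ := by
  by_contra hq
  have hq' : ℓ ∣ q.den := by
    by_contra hd
    exact hq ((Fermat.Agent.S28.RLoc.mem_iff_not_dvd ℓ q).2 hd)
  have hnum : IsCoprime q.num (ℓ : ℤ) := by
    have h1 : Nat.Coprime q.num.natAbs ℓ := Nat.Coprime.coprime_dvd_right hq' q.reduced
    have h2 : IsCoprime (q.num.natAbs : ℤ) (ℓ : ℤ) := Nat.isCoprime_iff_coprime.2 h1
    rcases Int.natAbs_eq q.num with h3 | h3
    · rw [h3]; exact h2
    · rw [h3]; exact h2.neg_left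
  have hu := rloc_isUnit hA _ hnum
  have hden : ((q.den : ℤ) : A) ∈ IsLocalRing.maximalIdeal A := by
    obtain ⟨c, hc⟩ := hq'
    have : ((q.den : ℤ) : A) = ((ℓ : ℤ) : A) * ((c : ℤ) : A) := by
      rw [← Int.cast_mul]; congr 1; exact_mod_cast hc
    rw [this]
    exact Ideal.mul_mem_right _ _ (rloc_ell_mem hA)
  have h5 : (q.num : A) = (⟨algebraMap ℚ Qb q, h⟩ : A) * ((q.den : ℤ) : A) := by
    apply Subtype.ext
    rw [A.coe_mul]
    have h7 : algebraMap ℚ Qb (q.num : ℚ) = algebraMap ℚ Qb q * algebraMap ℚ Qb (q.den : ℚ) := by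
      rw [← map_mul, Rat.mul_den_eq_num]
    rw [map_intCast, map_natCast] at h7
    have e1 : ((q.num : A) : Qb) = (q.num : Qb) := by simp
    have e2 : (((q.den : ℤ) : A) : Qb) = (q.den : Qb) := by simp
    rw [e1, e2, h7]
  have h8 : (q.num : A) ∈ IsLocalRing.maximalIdeal A := by
    rw [h5]; exact Ideal.mul_mem_left _ _ hden
  exact (IsLocalRing.mem_maximalIdeal _).1 h8 hu

/-- `R` is integrally closed in `ℚ` -/
theorem mem_R_of_isIntegral (q : ℚ) (h : IsIntegral (RR ℓ) (algebraMap ℚ Qb q)) : q ∈ RR ℓ := by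
  have h1 : IsIntegral (RR ℓ) q :=
    (isIntegral_algebraMap_iff (algebraMap ℚ Qb).injective).1 h
  obtain ⟨y, hy⟩ := (IsIntegrallyClosed.isIntegral_iff (R := RR ℓ) (K := ℚ)).1 h1
  rw [← hy]
  exact y.2

end Fermat.Agent.S19.A
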