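import Mathlib
import Fermat.Prelude.Def_FLTPrelim_Ramification

/-!
# S19, layer A : the scaling lemma SC (helper16)

`A` a valuation subring of a field `K` algebraic over `ℚ`-ish (we only need: `α` algebraic over `ℤ`), `ℓ ∈ 𝔪_A`, `α ∈ A`.
Then there is `d`, integral over `ℤ`, a unit of `A`, with `d α` integral over `ℤ`.

Proof.  `P ∈ ℤ[X]` primitive with `P(α) = 0`; `P_s := divX^[s] P` (Horner).  `P_s(α)` lies in every valuation subring `V`:
clear if `α ∈ V`; if `α⁻¹ ∈ V` use `P_{s+1}(α) = (P_s(α) - a_s) α⁻¹` and `P_0(α) = 0`.  So all `P_s(α)` are integral over `ℤ`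
(`iInf_valuationSubring_superset`).  Let `s` be the largest index with `ℓ ∤ a_s`: `d := P_s(α) = a_s + α P_{s+1}(α)` and
`ℓ ∣ P_{s+1}`, so `d` is a unit of `A`; `s ≠ 0` because `P_0(α) = 0`; `d α = P_{s-1}(α) - a_{s-1}`.
-/

set_option autoImplicit false

namespace Fermat.Agent.S19

open Polynomial

theorem sc_isIntegral_of_forall_mem {K : Type*} [Field K] (z : K)
    (h : ∀ V : ValuationSubring K, z ∈ V) : IsIntegral ℤ z := by
  have h0 := iInf_valuationSubring_superset (K := K) (s := ∅)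
  have h1 : z ∈ (⨅ V : {V : ValuationSubring K // (∅ : Set K) ⊆ V.toSubring}, V.1.toSubring) := by
    rw [Subring.mem_iInf]
    intro V
    exact h V.1
  rw [h0] at h1
  have h2 : IsIntegral (Subring.closure (∅ : Set K)) z := h1
  have h3 : Algebra.IsIntegral ℤ (Subring.closure (∅ : Set K)) := by
    refine ⟨fun x => ?_⟩
    have hx : (x : K) ∈ (⊥ : Subring K) := (Subring.closure_empty (R := K)).le x.2
    obtain ⟨n, hn⟩ := Subring.mem_bot.1 hx
    have : x = algebraMap ℤ _ n := Subtype.ext (by rw [← hn]; simp)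
    rw [this]
    exact isIntegral_algebraMap
  exact isIntegral_trans z h2

theorem sc_aeval_mem {K : Type*} [Field K] (V : ValuationSubring K) {α : K} (hα : α ∈ V) (Q : ℤ[X]) :
    aeval α Q ∈ V := by
  rw [aeval_eq_sum_range]
  refine V.toSubring.sum_mem (fun i _ => ?_)
  exact V.toSubring.zsmul_mem (V.toSubring.pow_mem hα i) _

theorem sc_step {K : Type*} [Field K] (α : K) (Q : ℤ[X]) :
    aeval α Q = aeval α Q.divX * α + (Q.coeff 0 : K) := by
  conv_lhs => rw [← divX_mul_X_add Q]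
  simp

theorem sc_horner_mem {K : Type*} [Field K] (V : ValuationSubring K) {α : K} {P : ℤ[X]}
    (hP : aeval α P = 0) (s : ℕ) : aeval α (divX^[s] P) ∈ V := by
  rcases V.mem_or_inv_mem α with hα | hα
  · exact sc_aeval_mem V hα _
  · induction s with
    | zero => simp [hP]
    | succ s ih =>
      rw [Function.iterate_succ_apply']
      by_cases h0 : α = 0
      · subst h0
        exact sc_aeval_mem V V.zero_mem _
      have h1 := sc_step α (divX^[s] P)
      have h2 : aeval α (divX (divX^[s] P)) = (aeval α (divX^[s] P) - ((divX^[s] P).coeff 0 : K)) * α⁻¹ := by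
        rw [h1]
        field_simp
        ring
      rw [h2]
      exact V.mul_mem _ _ (V.toSubring.sub_mem ih (intCast_mem V.toSubring _)) hα

theorem sc_coeff_iterate (P : ℤ[X]) (s i : ℕ) : (divX^[s] P).coeff i = P.coeff (i + s) := by
  induction s generalizing i with
  | zero => simp
  | succ s ih =>
    rw [Function.iterate_succ_apply', coeff_divX, ih]
    congr 1
    ring

theorem sc_unit_of_not_dvd {K : Type*} [Field K] (A : ValuationSubring K) {ℓ : ℕ} (hℓ : ℓ.Prime)
    (hA : A.LiesOverPrime ℓ) {a : ℤ} (ha : ¬ (ℓ : ℤ) ∣ a) {m : K} (hm : m ∈ A.nonunits) :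
    (a : K) + m ≠ 0 ∧ ((a : K) + m)⁻¹ ∈ A := by
  have hℓ1 : A.valuation (ℓ : K) < 1 := A.mem_nonunits_iff.1 hA
  have hm1 : A.valuation m < 1 := A.mem_nonunits_iff.1 hm
  have hint : ∀ n : ℤ, A.valuation (n : K) ≤ 1 := fun n =>
    (A.valuation_le_one_iff _).2 (intCast_mem A.toSubring n)
  obtain ⟨u, v, huv⟩ : IsCoprime (ℓ : ℤ) a :=
    (Prime.coprime_iff_not_dvd (Nat.prime_iff_prime_int.1 hℓ)).2 ha
  have hva : A.valuation (a : K) = 1 := by
    refine le_antisymm (hint a) ?_
    by_contra hlt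
    rw [not_le] at hlt
    have h1 : (1 : K) = (u : K) * (ℓ : K) + (v : K) * (a : K) := by
      have := congrArg (fun z : ℤ => (z : K)) huv
      push_cast at this
      exact this.symm
    have h2 : A.valuation (1 : K) < 1 := by
      rw [h1]
      refine lt_of_le_of_lt (A.valuation.map_add _ _) (max_lt ?_ ?_)
      · rw [map_mul]
        exact lt_of_le_of_lt (mul_le_of_le_one_left' (hint u)) hℓ1
      · rw [map_mul]
        exact lt_of_le_of_lt (mul_le_of_le_one_left' (hint v)) hlt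
    rw [map_one] at h2
    exact lt_irrefl _ h2
  have hv : A.valuation ((a : K) + m) = 1 := by
    rw [Valuation.map_add_eq_of_lt_left _ (by rw [hva]; exact hm1), hva]
  constructor
  · intro h0
    rw [h0, map_zero] at hv
    exact zero_ne_one hv
  · rw [← A.valuation_le_one_iff, map_inv₀, hv, inv_one]

theorem sc (K : Type*) [Field K] [CharZero K] (A : ValuationSubring K) {ℓ : ℕ} (hℓ : ℓ.Prime)
    (hA : A.LiesOverPrime ℓ) {α : K} (hα : α ∈ A) (halg : IsAlgebraic ℤ α) :
    ∃ d : K, IsIntegral ℤ d ∧ IsIntegral ℤ (d * α) ∧ d ≠ 0 ∧ d⁻¹ ∈ A := by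
  classical
  obtain ⟨P₀, hP₀, hP₀α⟩ := halg
  set P : ℤ[X] := P₀.primPart with hPdef
  have hPα : aeval α P = 0 := aeval_primPart_eq_zero hP₀ hP₀α
  have hprim : P.IsPrimitive := P₀.isPrimitive_primPart
  have hex : ∃ i, ¬ (ℓ : ℤ) ∣ P.coeff i := by
    by_contra hall
    push Not at hall
    have h1 : C (ℓ : ℤ) ∣ P := (C_dvd_iff_dvd_coeff _ _).2 hall
    exact (Nat.prime_iff_prime_int.1 hℓ).not_isUnit (hprim _ h1)
  obtain ⟨i₀, hi₀⟩ := hex
  have hi₀le : i₀ ≤ P.natDegree := by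
    by_contra hlt
    rw [not_le] at hlt
    exact hi₀ (by rw [coeff_eq_zero_of_natDegree_lt hlt]; exact dvd_zero _)
  set s := Nat.findGreatest (fun i => ¬ (ℓ : ℤ) ∣ P.coeff i) P.natDegree with hs
  have hs1 : ¬ (ℓ : ℤ) ∣ P.coeff s := Nat.findGreatest_spec (P := fun i => ¬ (ℓ : ℤ) ∣ P.coeff i) hi₀le hi₀
  have hs2 : ∀ i, s < i → (ℓ : ℤ) ∣ P.coeff i := by
    intro i hi
    by_cases hle : i ≤ P.natDegree
    · exact not_not.1 (Nat.findGreatest_is_greatest (P := fun i => ¬ (ℓ : ℤ) ∣ P.coeff i) hi hle)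
    · rw [coeff_eq_zero_of_natDegree_lt (not_le.1 hle)]
      exact dvd_zero _
  have hdvd : C (ℓ : ℤ) ∣ divX (divX^[s] P) := by
    rw [C_dvd_iff_dvd_coeff]
    intro i
    rw [coeff_divX, sc_coeff_iterate]
    exact hs2 _ (by omega)
  obtain ⟨Q, hQ⟩ := hdvd
  have hd := sc_step α (divX^[s] P)
  rw [sc_coeff_iterate, zero_add, hQ] at hd
  have hm : aeval α (C (ℓ : ℤ) * Q) * α ∈ A.nonunits := by
    rw [A.mem_nonunits_iff, map_mul, map_mul, aeval_C, map_mul]
    have h1 : A.valuation (ℓ : K) < 1 := A.mem_nonunits_iff.1 hA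
    have h2 : A.valuation (aeval α Q) ≤ 1 := (A.valuation_le_one_iff _).2 (sc_aeval_mem A hα Q)
    have h3 : A.valuation α ≤ 1 := (A.valuation_le_one_iff _).2 hα
    have h4 : (algebraMap ℤ K) (ℓ : ℤ) = (ℓ : K) := by simp
    rw [h4]
    exact lt_of_le_of_lt (mul_le_of_le_one_right' h3) (lt_of_le_of_lt (mul_le_of_le_one_right' h2) h1)
  have hunit := sc_unit_of_not_dvd A hℓ hA hs1 hm
  rw [add_comm, ← hd] at hunit
  have hs0 : s ≠ 0 := by
    intro h0
    apply hunit.1
    rw [h0]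
    simpa using hPα
  obtain ⟨t, ht⟩ := Nat.exists_eq_succ_of_ne_zero hs0
  refine ⟨aeval α (divX^[s] P), sc_isIntegral_of_forall_mem _ (fun V => sc_horner_mem V hPα s),
    sc_isIntegral_of_forall_mem _ (fun V => ?_), hunit.1, hunit.2⟩
  have h5 := sc_step α (divX^[t] P)
  have h6 : aeval α (divX^[s] P) * α = aeval α (divX^[t] P) - ((divX^[t] P).coeff 0 : K) := by
    rw [h5, ht, Function.iterate_succ_apply']
    ring
  rw [h6]
  exact V.toSubring.sub_mem (sc_horner_mem V hPα t) (intCast_mem V.toSubring _)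

end Fermat.Agent.S19
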