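import Fermat.Agent.S19.A.SpanBA
import Fermat.Agent.S19.A.LCabs

/-!
# S19, layer A : the local criterion LC (helper16)

Export: `exists_span_of_GCfun`.  `G : G_ℚ → Qb` locally constant such that all right translates `ρ ↦ G (ρ ρ₀)` are `GCfun A`.
Then `G ρ = ∑ k, c k * ρ (α k)` with `c k ∈ A` and `α k` integral over `ℤ_(ℓ)` (even over `ℤ`).

Proof.  (1) `lc_pair_at`: by `exists_pair_of_GCfun` (scaling lemma) and a translation, for every `ρ₀` there are `N1 N2 ∈ BA A Zb`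
with `N2 ρ₀` a unit of `A` and `N2 G = N1`.  (2) `G` only depends on `ρ|E`; choose one pair for each of the finitely many embeddings of
`E`; `K` := a finite normal extension containing `E` and all the integers used; translating by elements of `Gal(Qb/E)` we get pairs in
`BA A (Zb ⊓ K)` at every `ρ₁`.  (3) `lc_fin`: transport to functions on the finite set of embeddings of `K` and apply `lc_abs`.
-/

set_option autoImplicit false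

noncomputable section

namespace Fermat.Agent.S19

theorem lc_pair_at {ℓ : ℕ} (hℓ : ℓ.Prime) {A : ValuationSubring Qb} (hA : A.LiesOverPrime ℓ)
    {G : GQ → Qb} (hG : ∀ ρ₀ : GQ, GCfun A (fun ρ => G (ρ * ρ₀))) (ρ₀ : GQ) :
    ∃ N1 ∈ BA A Zb, ∃ N2 ∈ BA A Zb, UnitA A (N2 ρ₀) ∧ ∀ ρ, N2 ρ * G ρ = N1 ρ := by
  obtain ⟨n1, hn1, n2, hn2, hu, h⟩ := exists_pair_of_GCfun hℓ hA (hG ρ₀)
  refine ⟨_, BA_translate ρ₀⁻¹ (fun z hz => Zb_map _ hz) hn1, _,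
    BA_translate ρ₀⁻¹ (fun z hz => Zb_map _ hz) hn2, ?_, fun ρ => ?_⟩
  · show UnitA A (n2 (ρ₀ * ρ₀⁻¹))
    rwa [mul_inv_cancel]
  · show n2 (ρ * ρ₀⁻¹) * G ρ = n1 (ρ * ρ₀⁻¹)
    rw [← h, inv_mul_cancel_right]

theorem lc_fin {A : ValuationSubring Qb} (Z : Subring Qb) (hZA : ∀ z ∈ Z, ∀ ρ : GQ, ρ z ∈ A)
    {X : Type} [Finite X] (res : GQ → X) (hres : ∀ ρ ρ', res ρ = res ρ' → ∀ z ∈ Z, ρ z = ρ' z)
    (G : GQ → Qb) (hGres : ∀ ρ ρ', res ρ = res ρ' → G ρ = G ρ')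
    (h : ∀ ρ₁ : GQ, ∃ N1 ∈ BA A Z, ∃ N2 ∈ BA A Z, UnitA A (N2 ρ₁) ∧ ∀ ρ, N2 ρ * G ρ = N1 ρ) :
    G ∈ BA A Z := by
  classical
  let X' := Set.range res
  let res' : GQ → X' := Set.rangeFactorization res
  have hsec : ∀ x : X', ∃ ρ, res ρ = x.1 := fun x => x.2
  choose sec hsec using hsec
  let Φ : (X' → A) →+* (GQ → Qb) := RingHom.pi fun ρ => A.subtype.comp (Pi.evalRingHom _ (res' ρ))
  have hΦ : ∀ (f : X' → A) (ρ : GQ), Φ f ρ = (f (res' ρ) : Qb) := fun f ρ => rfl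
  have hlift : ∀ F : GQ → Qb, (∀ ρ, F ρ ∈ A) → (∀ ρ ρ', res ρ = res ρ' → F ρ = F ρ') →
      ∃ f : X' → A, Φ f = F ∧ ∀ x, (f x : Qb) = F (sec x) := by
    intro F hFA hF
    refine ⟨fun x => ⟨F (sec x), hFA _⟩, ?_, fun x => rfl⟩
    funext ρ
    rw [hΦ]
    exact hF _ _ (hsec (res' ρ))
  have hGA : ∀ ρ, G ρ ∈ A := by
    intro ρ
    obtain ⟨N1, hN1, N2, hN2, hu, hN⟩ := h ρ
    have h1 : G ρ = (N2 ρ)⁻¹ * N1 ρ := by
      rw [← hN, inv_mul_cancel_left₀ hu.1]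
    rw [h1]
    exact A.mul_mem _ _ hu.2 (BA_apply_mem hZA hN1 ρ)
  obtain ⟨GX, hGX, -⟩ := hlift G hGA hGres
  have key : GX ∈ (BA A Z).comap Φ := by
    apply lc_abs
    · intro a
      exact BA_const Z a.2
    · intro x
      obtain ⟨N1, hN1, N2, hN2, hu, hN⟩ := h (sec x)
      obtain ⟨NX, hNX, hNXx⟩ := hlift N2 (BA_apply_mem hZA hN2)
        (fun ρ ρ' hρ => BA_congr hN2 (hres ρ ρ' hρ))
      refine ⟨NX, ?_, ?_, ?_⟩
      · show Φ NX ∈ BA A Z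
        rw [hNX]
        exact hN2
      · refine IsUnit.of_mul_eq_one (⟨(N2 (sec x))⁻¹, hu.2⟩ : A) ?_
        apply Subtype.ext
        show (NX x : Qb) * (N2 (sec x))⁻¹ = 1
        rw [hNXx, mul_inv_cancel₀ hu.1]
      · show Φ (NX * GX) ∈ BA A Z
        rw [map_mul, hNX, hGX]
        have : N2 * G = N1 := funext hN
        rw [this]
        exact hN1
  have key' : Φ GX ∈ BA A Z := key
  rwa [hGX] at key'

theorem exists_span_of_GCfun (ℓ : ℕ) [Fact ℓ.Prime] (A : ValuationSubring Qb) (hA : A.LiesOverPrime ℓ)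
    (G : GQ → Qb)
    (hloc : ∃ E : IntermediateField ℚ Qb, FiniteDimensional ℚ E ∧
      ∀ σ : GQ, (∀ a ∈ E, σ a = a) → ∀ ρ, G (ρ * σ) = G ρ)
    (hG : ∀ ρ₀ : GQ, GCfun A (fun ρ => G (ρ * ρ₀))) :
    ∃ (n : ℕ) (c α : Fin n → Qb), (∀ k, c k ∈ A) ∧
      (∀ k, IsIntegral (GaloisRep.ratLocalizedAt ℓ) (α k)) ∧ ∀ ρ, G ρ = ∑ k, c k * ρ (α k) := by
  classical
  have hℓ : ℓ.Prime := Fact.out
  obtain ⟨E, hEfin, hE⟩ := hloc
  let resE : GQ → (E →ₐ[ℚ] Qb) := fun ρ => (ρ : Qb →ₐ[ℚ] Qb).comp E.val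
  have hS : ∀ y : E →ₐ[ℚ] Qb, ∃ S : Finset Qb, ∀ Z' : Subring Qb, (∀ z ∈ S, z ∈ Z') →
      (∀ z ∈ Z', ∀ ρ : GQ, ρ z ∈ Z') → ∀ ρ₁, resE ρ₁ = y →
      ∃ N1 ∈ BA A (Zb ⊓ Z'), ∃ N2 ∈ BA A (Zb ⊓ Z'), UnitA A (N2 ρ₁) ∧ ∀ ρ, N2 ρ * G ρ = N1 ρ := by
    intro y
    by_cases hy : ∃ ρ₀, resE ρ₀ = y
    · obtain ⟨ρ₀, hρ₀⟩ := hy
      obtain ⟨N1, hN1, N2, hN2, hu, hN⟩ := lc_pair_at hℓ hA hG ρ₀
      obtain ⟨S1, hS1⟩ := BA_exists_finset hN1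
      obtain ⟨S2, hS2⟩ := BA_exists_finset hN2
      refine ⟨S1 ∪ S2, fun Z' hZ' hst ρ₁ hρ₁ => ?_⟩
      have hN1' := hS1 Z' (fun z hz => hZ' z (Finset.mem_union_left _ hz))
      have hN2' := hS2 Z' (fun z hz => hZ' z (Finset.mem_union_right _ hz))
      have hstab : ∀ τ : GQ, ∀ z ∈ Zb ⊓ Z', τ z ∈ Zb ⊓ Z' := fun τ z hz =>
        ⟨Zb_map τ hz.1, hst z hz.2 τ⟩
      have hσ : ∀ a ∈ E, (ρ₀⁻¹ * ρ₁) a = a := by
        intro a ha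
        have h1 : ρ₁ a = ρ₀ a := by
          have := DFunLike.congr_fun (hρ₁.trans hρ₀.symm) ⟨a, ha⟩
          exact this
        show ρ₀⁻¹ (ρ₁ a) = a
        rw [h1]
        exact ρ₀.symm_apply_apply a
      refine ⟨_, BA_translate (ρ₀⁻¹ * ρ₁)⁻¹ (hstab _) hN1', _,
        BA_translate (ρ₀⁻¹ * ρ₁)⁻¹ (hstab _) hN2', ?_, fun ρ => ?_⟩
      · show UnitA A (N2 (ρ₁ * (ρ₀⁻¹ * ρ₁)⁻¹))
        have : ρ₁ * (ρ₀⁻¹ * ρ₁)⁻¹ = ρ₀ := by group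
        rwa [this]
      · show N2 (ρ * (ρ₀⁻¹ * ρ₁)⁻¹) * G ρ = N1 (ρ * (ρ₀⁻¹ * ρ₁)⁻¹)
        rw [← hN]
        congr 1
        have := hE _ hσ (ρ * (ρ₀⁻¹ * ρ₁)⁻¹)
        rw [inv_mul_cancel_right] at this
        exact this
    · exact ⟨∅, fun Z' _ _ ρ₁ hρ₁ => (hy ⟨ρ₁, hρ₁⟩).elim⟩
  choose S hS using hS
  have : Fintype (E →ₐ[ℚ] Qb) := Fintype.ofFinite _
  let S₀ : Finset Qb := Finset.univ.biUnion S
  let K₀ : IntermediateField ℚ Qb := E ⊔ IntermediateField.adjoin ℚ (S₀ : Set Qb)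
  have hK₀fin : FiniteDimensional ℚ K₀ := by
    have : FiniteDimensional ℚ (IntermediateField.adjoin ℚ (S₀ : Set Qb)) :=
      IntermediateField.finiteDimensional_adjoin
        (fun x _ => ((AlgebraicClosure.isAlgebraic ℚ).isAlgebraic x).isIntegral)
    exact IntermediateField.finiteDimensional_sup _ _
  let K : IntermediateField ℚ Qb := IntermediateField.normalClosure ℚ K₀ Qb
  have hK₀K : K₀ ≤ K := IntermediateField.le_normalClosure K₀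
  have hQc : IsAlgClosure ℚ (AlgebraicClosure ℚ) := ⟨inferInstance, AlgebraicClosure.isAlgebraic ℚ⟩
  have hQn : Normal ℚ Qb := IsAlgClosure.normal ℚ (AlgebraicClosure ℚ)
  have hKn : Normal ℚ K := normalClosure.normal ℚ K₀ Qb
  have hKfin : FiniteDimensional ℚ K := normalClosure.is_finiteDimensional ℚ K₀ Qb
  have hKst : ∀ z ∈ K.toSubring, ∀ ρ : GQ, ρ z ∈ K.toSubring := by
    intro z hz ρ
    have := AlgEquiv.restrictNormal_commutes ρ K ⟨z, hz⟩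
    show ρ z ∈ K
    have h2 : ρ z = ((ρ.restrictNormal K ⟨z, hz⟩ : K) : Qb) := this.symm
    rw [h2]
    exact (ρ.restrictNormal K ⟨z, hz⟩).2
  have hSK : ∀ y, ∀ z ∈ S y, z ∈ K.toSubring := by
    intro y z hz
    apply hK₀K
    apply (le_sup_right : IntermediateField.adjoin ℚ (S₀ : Set Qb) ≤ K₀)
    apply IntermediateField.subset_adjoin
    exact Finset.mem_coe.2 (Finset.mem_biUnion.2 ⟨y, Finset.mem_univ y, hz⟩)
  have hEK : E ≤ K := le_trans le_sup_left hK₀K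
  let res : GQ → (K →ₐ[ℚ] Qb) := fun ρ => (ρ : Qb →ₐ[ℚ] Qb).comp K.val
  have hresK : ∀ ρ ρ', res ρ = res ρ' → ∀ z ∈ K, ρ z = ρ' z := by
    intro ρ ρ' h z hz
    exact DFunLike.congr_fun h ⟨z, hz⟩
  have hmem : G ∈ BA A (Zb ⊓ K.toSubring) := by
    refine lc_fin (Zb ⊓ K.toSubring) (fun z hz ρ => Zb_le A (Zb_map ρ hz.1)) res
      (fun ρ ρ' h z hz => hresK ρ ρ' h z hz.2) G ?_ ?_
    · intro ρ ρ' h
      have hσ : ∀ a ∈ E, (ρ⁻¹ * ρ') a = a := by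
        intro a ha
        show ρ⁻¹ (ρ' a) = a
        rw [← hresK ρ ρ' h a (hEK ha)]
        exact ρ.symm_apply_apply a
      have := hE _ hσ ρ
      rw [mul_inv_cancel_left] at this
      exact this.symm
    · intro ρ₁
      exact hS (resE ρ₁) K.toSubring (hSK _) hKst ρ₁ rfl
  obtain ⟨n, c, α, hc, hα, hf⟩ := BA_exists_fin hmem
  exact ⟨n, c, α, hc, fun k => (mem_Zb.1 (hα k).1).tower_top, hf⟩

end Fermat.Agent.S19
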