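import Fermat.Agent.S19.Defs
import Fermat.Agent.S19.A.SC

/-!
# S19, layer A : the rings `BA A Z` and the fraction lemma (helper16)

`BA A Z` = the functions `ρ ↦ ∑ k, c k * ρ (α k)` on `G_ℚ`, `c k ∈ A`, `α k ∈ Z` (`Z` a subring of `Qb`).
`Zb` = the integers of `Qb`.  By the scaling lemma every `W ∈ Wring A` is a fraction `N / D`, `N D ∈ BA A Zb`, `D 1` a unit of `A`;
hence `GCfun A G` gives `N1 N2 ∈ BA A Zb`, `N2 1` a unit of `A`, `N2 G = N1`.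
-/

set_option autoImplicit false

noncomputable section

namespace Fermat.Agent.S19

/-- `f ρ = ∑ k, c k * ρ (α k)` with `c k ∈ A`, `α k ∈ Z` -/
def IsBA (A : ValuationSubring Qb) (Z : Subring Qb) (f : GQ → Qb) : Prop :=
  ∃ (ι : Type) (_ : Fintype ι) (c α : ι → Qb), (∀ k, c k ∈ A) ∧ (∀ k, α k ∈ Z) ∧
    ∀ ρ : GQ, f ρ = ∑ k, c k * ρ (α k)

def BA (A : ValuationSubring Qb) (Z : Subring Qb) : Subring (GQ → Qb) where
  carrier := {f | IsBA A Z f}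
  mul_mem' := by
    rintro f g ⟨ι, _, c, α, hc, hα, hf⟩ ⟨κ, _, d, β, hd, hβ, hg⟩
    refine ⟨ι × κ, inferInstance, fun k => c k.1 * d k.2, fun k => α k.1 * β k.2,
      fun k => A.mul_mem _ _ (hc _) (hd _), fun k => Z.mul_mem (hα _) (hβ _), fun ρ => ?_⟩
    rw [Pi.mul_apply, hf, hg, Finset.sum_mul_sum, Fintype.sum_prod_type]
    refine Finset.sum_congr rfl fun i _ => Finset.sum_congr rfl fun j _ => ?_
    rw [map_mul]
    ring
  one_mem' := ⟨Unit, inferInstance, fun _ => 1, fun _ => 1, fun _ => A.one_mem, fun _ => Z.one_mem,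
    fun ρ => by simp⟩
  add_mem' := by
    rintro f g ⟨ι, _, c, α, hc, hα, hf⟩ ⟨κ, _, d, β, hd, hβ, hg⟩
    refine ⟨ι ⊕ κ, inferInstance, Sum.elim c d, Sum.elim α β, ?_, ?_, fun ρ => ?_⟩
    · rintro (k | k)
      · exact hc k
      · exact hd k
    · rintro (k | k)
      · exact hα k
      · exact hβ k
    · rw [Pi.add_apply, hf, hg, Fintype.sum_sum_type]
      rfl
  zero_mem' := ⟨Empty, inferInstance, fun _ => 0, fun _ => 0, fun k => k.elim, fun k => k.elim,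
    fun ρ => by simp⟩
  neg_mem' := by
    rintro f ⟨ι, _, c, α, hc, hα, hf⟩
    refine ⟨ι, inferInstance, fun k => - c k, α, fun k => A.neg_mem _ (hc k), hα, fun ρ => ?_⟩
    rw [Pi.neg_apply, hf, ← Finset.sum_neg_distrib]
    refine Finset.sum_congr rfl fun i _ => ?_
    ring

theorem mem_BA {A : ValuationSubring Qb} {Z : Subring Qb} {f : GQ → Qb} : f ∈ BA A Z ↔ IsBA A Z f :=
  Iff.rfl

theorem BA_const {A : ValuationSubring Qb} (Z : Subring Qb) {c : Qb} (hc : c ∈ A) :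
    (fun _ : GQ => c) ∈ BA A Z :=
  ⟨Unit, inferInstance, fun _ => c, fun _ => 1, fun _ => hc, fun _ => Z.one_mem, fun ρ => by simp⟩

theorem BA_orb (A : ValuationSubring Qb) {Z : Subring Qb} {α : Qb} (hα : α ∈ Z) :
    (fun ρ : GQ => ρ α) ∈ BA A Z :=
  ⟨Unit, inferInstance, fun _ => 1, fun _ => α, fun _ => A.one_mem, fun _ => hα, fun ρ => by simp⟩

theorem BA_mono (A : ValuationSubring Qb) {Z Z' : Subring Qb} (h : Z ≤ Z') : BA A Z ≤ BA A Z' := by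
  rintro f ⟨ι, _, c, α, hc, hα, hf⟩
  exact ⟨ι, inferInstance, c, α, hc, fun k => h (hα k), hf⟩

/-- right translation -/
theorem BA_translate {A : ValuationSubring Qb} {Z : Subring Qb} (τ : GQ) (hτ : ∀ z ∈ Z, τ z ∈ Z)
    {f : GQ → Qb} (hf : f ∈ BA A Z) : (fun ρ => f (ρ * τ)) ∈ BA A Z := by
  obtain ⟨ι, _, c, α, hc, hα, hf⟩ := hf
  exact ⟨ι, inferInstance, c, fun k => τ (α k), hc, fun k => hτ _ (hα k), fun ρ => by
    show f (ρ * τ) = _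
    rw [hf]; rfl⟩

theorem BA_apply_mem {A : ValuationSubring Qb} {Z : Subring Qb} (hZ : ∀ z ∈ Z, ∀ ρ : GQ, ρ z ∈ A)
    {f : GQ → Qb} (hf : f ∈ BA A Z) (ρ : GQ) : f ρ ∈ A := by
  obtain ⟨ι, _, c, α, hc, hα, hf⟩ := hf
  rw [hf]
  exact A.toSubring.sum_mem fun k _ => A.mul_mem _ _ (hc k) (hZ _ (hα k) ρ)

theorem BA_congr {A : ValuationSubring Qb} {Z : Subring Qb} {f : GQ → Qb} (hf : f ∈ BA A Z)
    {ρ ρ' : GQ} (h : ∀ z ∈ Z, ρ z = ρ' z) : f ρ = f ρ' := by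
  obtain ⟨ι, _, c, α, hc, hα, hf⟩ := hf
  rw [hf, hf]
  exact Finset.sum_congr rfl fun k _ => by rw [h _ (hα k)]

/-- finite level -/
theorem BA_exists_finset {A : ValuationSubring Qb} {Z : Subring Qb} {f : GQ → Qb} (hf : f ∈ BA A Z) :
    ∃ S : Finset Qb, ∀ Z' : Subring Qb, (∀ z ∈ S, z ∈ Z') → f ∈ BA A (Z ⊓ Z') := by
  classical
  obtain ⟨ι, _, c, α, hc, hα, hf⟩ := hf
  exact ⟨Finset.univ.image α, fun Z' h => ⟨ι, inferInstance, c, α, hc,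
    fun k => ⟨hα k, h _ (Finset.mem_image_of_mem _ (Finset.mem_univ k))⟩, hf⟩⟩

/-- the explicit form indexed by `Fin n` -/
theorem BA_exists_fin {A : ValuationSubring Qb} {Z : Subring Qb} {f : GQ → Qb} (hf : f ∈ BA A Z) :
    ∃ (n : ℕ) (c α : Fin n → Qb), (∀ k, c k ∈ A) ∧ (∀ k, α k ∈ Z) ∧
      ∀ ρ : GQ, f ρ = ∑ k, c k * ρ (α k) := by
  obtain ⟨ι, _, c, α, hc, hα, hf⟩ := hf
  let e := Fintype.equivFin ι
  refine ⟨Fintype.card ι, fun k => c (e.symm k), fun k => α (e.symm k), fun k => hc _, fun k => hα _,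
    fun ρ => ?_⟩
  rw [hf]
  exact (Equiv.sum_comp e.symm (fun k => c k * ρ (α k))).symm

/-- the integers of `Qb` -/
def Zb : Subring Qb := (integralClosure ℤ Qb).toSubring

theorem mem_Zb {z : Qb} : z ∈ Zb ↔ IsIntegral ℤ z := Iff.rfl

theorem Zb_map (ρ : GQ) {z : Qb} (hz : z ∈ Zb) : ρ z ∈ Zb := by
  rw [mem_Zb] at hz ⊢
  exact hz.map (ρ : Qb →ₐ[ℚ] Qb).toRingHom.toIntAlgHom

theorem Zb_le (A : ValuationSubring Qb) {z : Qb} (hz : z ∈ Zb) : z ∈ A := by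
  rw [mem_Zb] at hz
  have h1 : IsIntegral A z := hz.tower_top
  obtain ⟨y, hy⟩ := (IsIntegrallyClosed.isIntegral_iff (R := A) (K := Qb)).1 h1
  rw [← hy]
  exact y.2

/-- unit of `A` -/
def UnitA (A : ValuationSubring Qb) (x : Qb) : Prop := x ≠ 0 ∧ x⁻¹ ∈ A

theorem UnitA.mul {A : ValuationSubring Qb} {x y : Qb} (hx : UnitA A x) (hy : UnitA A y) :
    UnitA A (x * y) :=
  ⟨mul_ne_zero hx.1 hy.1, by rw [mul_inv]; exact A.mul_mem _ _ hx.2 hy.2⟩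

theorem UnitA.one (A : ValuationSubring Qb) : UnitA A 1 := ⟨one_ne_zero, by rw [inv_one]; exact A.one_mem⟩

/-- **fractions** -/
theorem exists_frac {ℓ : ℕ} (hℓ : ℓ.Prime) {A : ValuationSubring Qb} (hA : A.LiesOverPrime ℓ)
    {W : GQ → Qb} (hW : W ∈ Wring A) :
    ∃ N ∈ BA A Zb, ∃ D ∈ BA A Zb, UnitA A (D 1) ∧ ∀ ρ, D ρ * W ρ = N ρ := by
  induction hW using Subring.closure_induction with
  | mem x hx =>
    rcases hx with ⟨c, hc, rfl⟩ | ⟨α, hα, rfl⟩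
    · exact ⟨_, BA_const Zb hc, 1, (BA A Zb).one_mem, UnitA.one A, fun ρ => by simp⟩
    · have halg : IsAlgebraic ℤ α :=
        (IsFractionRing.isAlgebraic_iff ℤ ℚ Qb).2 ((AlgebraicClosure.isAlgebraic ℚ).isAlgebraic α)
      obtain ⟨d, hd, hdα, hd0, hdi⟩ := sc Qb A hℓ hA hα halg
      refine ⟨_, BA_orb A (Z := Zb) hdα, _, BA_orb A (Z := Zb) hd, ⟨?_, ?_⟩, fun ρ => ?_⟩
      · simpa using hd0
      · simpa using hdi
      · rw [map_mul]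
  | zero => exact ⟨0, (BA A Zb).zero_mem, 1, (BA A Zb).one_mem, UnitA.one A, fun ρ => by simp⟩
  | one => exact ⟨1, (BA A Zb).one_mem, 1, (BA A Zb).one_mem, UnitA.one A, fun ρ => by simp⟩
  | add x y _ _ ihx ihy =>
    obtain ⟨N, hN, D, hD, hu, h⟩ := ihx
    obtain ⟨N', hN', D', hD', hu', h'⟩ := ihy
    refine ⟨N * D' + N' * D, (BA A Zb).add_mem ((BA A Zb).mul_mem hN hD') ((BA A Zb).mul_mem hN' hD),
      D * D', (BA A Zb).mul_mem hD hD', hu.mul hu', fun ρ => ?_⟩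
    simp only [Pi.add_apply, Pi.mul_apply, ← h, ← h']
    ring
  | neg x _ ih =>
    obtain ⟨N, hN, D, hD, hu, h⟩ := ih
    refine ⟨-N, (BA A Zb).neg_mem hN, D, hD, hu, fun ρ => ?_⟩
    simp only [Pi.neg_apply, ← h]
    ring
  | mul x y _ _ ihx ihy =>
    obtain ⟨N, hN, D, hD, hu, h⟩ := ihx
    obtain ⟨N', hN', D', hD', hu', h'⟩ := ihy
    refine ⟨N * N', (BA A Zb).mul_mem hN hN', D * D', (BA A Zb).mul_mem hD hD', hu.mul hu', fun ρ => ?_⟩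
    simp only [Pi.mul_apply, ← h, ← h']
    ring

theorem exists_pair_of_GCfun {ℓ : ℕ} (hℓ : ℓ.Prime) {A : ValuationSubring Qb} (hA : A.LiesOverPrime ℓ)
    {G : GQ → Qb} (hG : GCfun A G) :
    ∃ N1 ∈ BA A Zb, ∃ N2 ∈ BA A Zb, UnitA A (N2 1) ∧ ∀ ρ, N2 ρ * G ρ = N1 ρ := by
  obtain ⟨W1, hW1, W2, hW2, h0, hi, h⟩ := hG
  obtain ⟨n1, hn1, D1, hD1, hu1, h1⟩ := exists_frac hℓ hA hW1
  obtain ⟨n2, hn2, D2, hD2, hu2, h2⟩ := exists_frac hℓ hA hW2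
  refine ⟨D2 * n1, (BA A Zb).mul_mem hD2 hn1, D1 * n2, (BA A Zb).mul_mem hD1 hn2, ?_, fun ρ => ?_⟩
  · have : (D1 * n2) 1 = D1 1 * (D2 1 * W2 1) := by rw [Pi.mul_apply, h2]
    rw [this]
    exact hu1.mul (hu2.mul ⟨h0, hi⟩)
  · simp only [Pi.mul_apply, ← h1, ← h2, ← h]
    ring

end Fermat.Agent.S19
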